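/-
Stmt_Tate part T5 (flat at a good odd prime), package LAW (helper46), pure algebra.
The complete addition law (Bosma–Lenstra law attached to `(0:1:0)`, = Renes–Costello–Batina for
`b₂ = 0`) of the curve `Y² Z = 4 X³ + b₂ X² Z + 2 b₄ X Z² + b₆ Z³` (`Y = ψ = 2y + a₁x + a₃`), with
integer coefficients, and the identities that compare it with the chord-tangent formulas.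
All certificates were produced by exact polynomial division modulo the two curve equations.
-/
import Mathlib.Tactic.Ring
import Mathlib.Tactic.LinearCombination
import Mathlib.Algebra.Ring.Basic

set_option autoImplicit false

namespace Fermat.Agent.Tate.T5.H46

variable {R : Type*} [CommRing R]

/-- `X`-coordinate of the complete addition law. -/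
def HX (b₂ b₄ b₆ X₁ Y₁ Z₁ X₂ Y₂ Z₂ : R) : R :=
    -X₁ ^ 2 * X₂ * Y₂ * b₂ - 2 * X₁ ^ 2 * Y₂ * Z₂ * b₄ - X₁ * Y₁ * X₂ ^ 2 * b₂ - 4 * X₁ * Y₁ * X₂ * Z₂ * b₄
      + X₁ * Y₁ * Y₂ ^ 2 - 3 * X₁ * Y₁ * Z₂ ^ 2 * b₆ - 4 * X₁ * Z₁ * X₂ * Y₂ * b₄ - 6 * X₁ * Z₁ * Y₂ * Z₂ * b₆
      + Y₁ ^ 2 * X₂ * Y₂ - 2 * Y₁ * Z₁ * X₂ ^ 2 * b₄ - 6 * Y₁ * Z₁ * X₂ * Z₂ * b₆ - Y₁ * Z₁ * Z₂ ^ 2 * b₂ * b₆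
      + Y₁ * Z₁ * Z₂ ^ 2 * b₄ ^ 2 - 3 * Z₁ ^ 2 * X₂ * Y₂ * b₆ - Z₁ ^ 2 * Y₂ * Z₂ * b₂ * b₆ + Z₁ ^ 2 * Y₂ * Z₂ * b₄ ^ 2

/-- `Y`-coordinate of the complete addition law. -/
def HY (b₂ b₄ b₆ X₁ Y₁ Z₁ X₂ Y₂ Z₂ : R) : R :=
    -X₁ ^ 2 * X₂ ^ 2 * b₂ ^ 2 + 24 * X₁ ^ 2 * X₂ ^ 2 * b₄ - 2 * X₁ ^ 2 * X₂ * Z₂ * b₂ * b₄ + 36 * X₁ ^ 2 * X₂ * Z₂ * b₆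
      + 3 * X₁ ^ 2 * Z₂ ^ 2 * b₂ * b₆ - 4 * X₁ ^ 2 * Z₂ ^ 2 * b₄ ^ 2 - 2 * X₁ * Z₁ * X₂ ^ 2 * b₂ * b₄
      + 36 * X₁ * Z₁ * X₂ ^ 2 * b₆ + 12 * X₁ * Z₁ * X₂ * Z₂ * b₂ * b₆ - 16 * X₁ * Z₁ * X₂ * Z₂ * b₄ ^ 2
      + X₁ * Z₁ * Z₂ ^ 2 * b₂ ^ 2 * b₆ - X₁ * Z₁ * Z₂ ^ 2 * b₂ * b₄ ^ 2 - 6 * X₁ * Z₁ * Z₂ ^ 2 * b₄ * b₆
      + Y₁ ^ 2 * Y₂ ^ 2 + 3 * Z₁ ^ 2 * X₂ ^ 2 * b₂ * b₆ - 4 * Z₁ ^ 2 * X₂ ^ 2 * b₄ ^ 2 + Z₁ ^ 2 * X₂ * Z₂ * b₂ ^ 2 * b₆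
      - Z₁ ^ 2 * X₂ * Z₂ * b₂ * b₄ ^ 2 - 6 * Z₁ ^ 2 * X₂ * Z₂ * b₄ * b₆ + 2 * Z₁ ^ 2 * Z₂ ^ 2 * b₂ * b₄ * b₆
      - 2 * Z₁ ^ 2 * Z₂ ^ 2 * b₄ ^ 3 - 9 * Z₁ ^ 2 * Z₂ ^ 2 * b₆ ^ 2

/-- `Z`-coordinate of the complete addition law. -/
def HZ (b₂ b₄ b₆ X₁ Y₁ Z₁ X₂ Y₂ Z₂ : R) : R :=
    12 * X₁ ^ 2 * X₂ * Y₂ + X₁ ^ 2 * Y₂ * Z₂ * b₂ + 12 * X₁ * Y₁ * X₂ ^ 2 + 2 * X₁ * Y₁ * X₂ * Z₂ * b₂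
      + 2 * X₁ * Y₁ * Z₂ ^ 2 * b₄ + 2 * X₁ * Z₁ * X₂ * Y₂ * b₂ + 4 * X₁ * Z₁ * Y₂ * Z₂ * b₄ + Y₁ ^ 2 * Y₂ * Z₂
      + Y₁ * Z₁ * X₂ ^ 2 * b₂ + 4 * Y₁ * Z₁ * X₂ * Z₂ * b₄ + Y₁ * Z₁ * Y₂ ^ 2 + 3 * Y₁ * Z₁ * Z₂ ^ 2 * b₆
      + 2 * Z₁ ^ 2 * X₂ * Y₂ * b₄ + 3 * Z₁ ^ 2 * Y₂ * Z₂ * b₆

/-! ### Bihomogeneity, symmetry, the point `O = (0:1:0)` -/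

lemma HX_homog (b₂ b₄ b₆ X₁ Y₁ Z₁ X₂ Y₂ Z₂ s t : R) :
    HX b₂ b₄ b₆ (s * X₁) (s * Y₁) (s * Z₁) (t * X₂) (t * Y₂) (t * Z₂)
      = s ^ 2 * t ^ 2 * HX b₂ b₄ b₆ X₁ Y₁ Z₁ X₂ Y₂ Z₂ := by
  unfold HX; ring

lemma HY_homog (b₂ b₄ b₆ X₁ Y₁ Z₁ X₂ Y₂ Z₂ s t : R) :
    HY b₂ b₄ b₆ (s * X₁) (s * Y₁) (s * Z₁) (t * X₂) (t * Y₂) (t * Z₂)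
      = s ^ 2 * t ^ 2 * HY b₂ b₄ b₆ X₁ Y₁ Z₁ X₂ Y₂ Z₂ := by
  unfold HY; ring

lemma HZ_homog (b₂ b₄ b₆ X₁ Y₁ Z₁ X₂ Y₂ Z₂ s t : R) :
    HZ b₂ b₄ b₆ (s * X₁) (s * Y₁) (s * Z₁) (t * X₂) (t * Y₂) (t * Z₂)
      = s ^ 2 * t ^ 2 * HZ b₂ b₄ b₆ X₁ Y₁ Z₁ X₂ Y₂ Z₂ := by
  unfold HZ; ring

lemma HX_comm (b₂ b₄ b₆ X₁ Y₁ Z₁ X₂ Y₂ Z₂ : R) :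
    HX b₂ b₄ b₆ X₁ Y₁ Z₁ X₂ Y₂ Z₂ = HX b₂ b₄ b₆ X₂ Y₂ Z₂ X₁ Y₁ Z₁ := by
  unfold HX; ring

lemma HY_comm (b₂ b₄ b₆ X₁ Y₁ Z₁ X₂ Y₂ Z₂ : R) :
    HY b₂ b₄ b₆ X₁ Y₁ Z₁ X₂ Y₂ Z₂ = HY b₂ b₄ b₆ X₂ Y₂ Z₂ X₁ Y₁ Z₁ := by
  unfold HY; ring

lemma HZ_comm (b₂ b₄ b₆ X₁ Y₁ Z₁ X₂ Y₂ Z₂ : R) :
    HZ b₂ b₄ b₆ X₁ Y₁ Z₁ X₂ Y₂ Z₂ = HZ b₂ b₄ b₆ X₂ Y₂ Z₂ X₁ Y₁ Z₁ := by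
  unfold HZ; ring

lemma HX_zero_left (b₂ b₄ b₆ X Y Z : R) : HX b₂ b₄ b₆ 0 1 0 X Y Z = X * Y := by
  unfold HX; ring

lemma HY_zero_left (b₂ b₄ b₆ X Y Z : R) : HY b₂ b₄ b₆ 0 1 0 X Y Z = Y ^ 2 := by
  unfold HY; ring

lemma HZ_zero_left (b₂ b₄ b₆ X Y Z : R) : HZ b₂ b₄ b₆ 0 1 0 X Y Z = Y * Z := by
  unfold HZ; ring

/-- `P + (-P)`: the `X`-coordinate vanishes identically. -/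
lemma HX_neg (b₂ b₄ b₆ X Y Z : R) : HX b₂ b₄ b₆ X Y Z X (-Y) Z = 0 := by
  unfold HX; ring

/-- `P + (-P)`: the `Z`-coordinate vanishes identically. -/
lemma HZ_neg (b₂ b₄ b₆ X Y Z : R) : HZ b₂ b₄ b₆ X Y Z X (-Y) Z = 0 := by
  unfold HZ; ring

lemma HY_neg_right (b₂ b₄ b₆ X₁ Y₁ Z₁ X₂ Y₂ Z₂ : R) :
    HY b₂ b₄ b₆ X₁ Y₁ Z₁ X₂ (-Y₂) Z₂ = HY b₂ b₄ b₆ X₁ Y₁ Z₁ X₂ Y₂ Z₂ := by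
  unfold HY; ring

lemma HZ_neg_right (b₂ b₄ b₆ X₁ Y₁ Z₁ X₂ Y₂ Z₂ : R) :
    HZ b₂ b₄ b₆ X₁ Y₁ Z₁ X₂ (-Y₂) Z₂
      = HZ b₂ b₄ b₆ X₁ Y₁ Z₁ X₂ Y₂ Z₂ - 2 * Y₂ * (12 * X₁ ^ 2 * X₂ + X₁ ^ 2 * Z₂ * b₂
          + 2 * X₁ * Z₁ * X₂ * b₂ + 4 * X₁ * Z₁ * Z₂ * b₄ + Y₁ ^ 2 * Z₂ + 2 * Z₁ ^ 2 * X₂ * b₄
          + 3 * Z₁ ^ 2 * Z₂ * b₆) := by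
  unfold HZ; ring

/-! ### Chord-tangent quantities (denominators cleared)
`ψ² = 4x³ + b₂x² + 2b₄x + b₆`; for `P = (x₁, ψ₁)`, `Q = (x₂, ψ₂)`, `d = x₁ - x₂`:
`chS = 4 d² x(P+Q)`, `chT = 4 d³ ψ(P+Q)`; for `P = Q`: `tgS = 4 ψ² x(2P)`, `tgT = 4 ψ³ ψ(2P)`. -/

/-- `4 d² x(P+Q)` -/
def chS (b₂ x₁ ψ₁ x₂ ψ₂ : R) : R := (ψ₁ - ψ₂) ^ 2 - (b₂ + 4 * x₁ + 4 * x₂) * (x₁ - x₂) ^ 2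

/-- `4 d³ ψ(P+Q)` -/
def chT (b₂ x₁ ψ₁ x₂ ψ₂ : R) : R :=
  -(ψ₁ - ψ₂) * (chS b₂ x₁ ψ₁ x₂ ψ₂ - 4 * (x₁ - x₂) ^ 2 * x₁) - 4 * (x₁ - x₂) ^ 3 * ψ₁

/-- `4 ψ² x(2P)` -/
def tgS (b₂ b₄ x ψ : R) : R := (6 * x ^ 2 + b₂ * x + b₄) ^ 2 - (b₂ + 8 * x) * ψ ^ 2

/-- `4 ψ³ ψ(2P)` -/
def tgT (b₂ b₄ x ψ : R) : R :=
  -(6 * x ^ 2 + b₂ * x + b₄) * (tgS b₂ b₄ x ψ - 4 * ψ ^ 2 * x) - 4 * ψ ^ 4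

section identities

variable (b₂ b₄ b₆ x₁ ψ₁ x₂ ψ₂ : R)
  (h₁ : ψ₁ ^ 2 = 4 * x₁ ^ 3 + b₂ * x₁ ^ 2 + 2 * b₄ * x₁ + b₆)
  (h₂ : ψ₂ ^ 2 = 4 * x₂ ^ 3 + b₂ * x₂ ^ 2 + 2 * b₄ * x₂ + b₆)

include h₁ h₂ in
/-- chord: `4 d² H_X = (4 d² x₃) H_Z` -/
theorem chord_X :
    4 * (x₁ - x₂) ^ 2 * HX b₂ b₄ b₆ x₁ ψ₁ 1 x₂ ψ₂ 1
      = chS b₂ x₁ ψ₁ x₂ ψ₂ * HZ b₂ b₄ b₆ x₁ ψ₁ 1 x₂ ψ₂ 1 := by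
  unfold HX HZ chS
  linear_combination
    (-12 * x₁ ^ 2 * x₂ * ψ₂ - x₁ ^ 2 * ψ₂ * b₂ - 12 * x₁ * ψ₁ * x₂ ^ 2 - 2 * x₁ * ψ₁ * x₂ * b₂
        - 2 * x₁ * ψ₁ * b₄ + 12 * x₁ * x₂ ^ 2 * ψ₂ - 2 * x₁ * ψ₂ * b₄ - ψ₁ ^ 2 * ψ₂ - ψ₁ * x₂ ^ 2 * b₂
        - 4 * ψ₁ * x₂ * b₄ + ψ₁ * ψ₂ ^ 2 - 3 * ψ₁ * b₆ + 8 * x₂ ^ 3 * ψ₂ + 3 * x₂ ^ 2 * ψ₂ * b₂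
        + 6 * x₂ * ψ₂ * b₄ + ψ₂ ^ 3 + 2 * ψ₂ * b₆) * h₁
    + (12 * x₁ ^ 3 * ψ₁ + 4 * x₁ ^ 3 * ψ₂ + 12 * x₁ ^ 2 * ψ₁ * x₂ + 4 * x₁ ^ 2 * ψ₁ * b₂ - 12 * x₁ ^ 2 * x₂ * ψ₂
        - 12 * x₁ * ψ₁ * x₂ ^ 2 + 8 * x₁ * ψ₁ * b₄ - 2 * x₁ * x₂ * ψ₂ * b₂ - 2 * x₁ * ψ₂ * b₄ - ψ₁ * x₂ ^ 2 * b₂
        - 2 * ψ₁ * x₂ * b₄ - ψ₁ * ψ₂ ^ 2 + 3 * ψ₁ * b₆ - 2 * x₂ * ψ₂ * b₄ - 2 * ψ₂ * b₆) * h₂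

include h₁ h₂ in
/-- chord: `4 d³ H_Y = (4 d³ ψ₃) H_Z` -/
theorem chord_Y :
    4 * (x₁ - x₂) ^ 3 * HY b₂ b₄ b₆ x₁ ψ₁ 1 x₂ ψ₂ 1
      = chT b₂ x₁ ψ₁ x₂ ψ₂ * HZ b₂ b₄ b₆ x₁ ψ₁ 1 x₂ ψ₂ 1 := by
  unfold HY HZ chT chS
  linear_combination
    (12 * x₁ ^ 2 * ψ₁ * x₂ * ψ₂ + x₁ ^ 2 * ψ₁ * ψ₂ * b₂ + 144 * x₁ ^ 2 * x₂ ^ 4 + 48 * x₁ ^ 2 * x₂ ^ 3 * b₂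
        + 4 * x₁ ^ 2 * x₂ ^ 2 * b₂ ^ 2 + 48 * x₁ ^ 2 * x₂ ^ 2 * b₄ - 60 * x₁ ^ 2 * x₂ * ψ₂ ^ 2
        + 8 * x₁ ^ 2 * x₂ * b₂ * b₄ - 5 * x₁ ^ 2 * ψ₂ ^ 2 * b₂ + 4 * x₁ ^ 2 * b₄ ^ 2 + 12 * x₁ * ψ₁ ^ 2 * x₂ ^ 2
        + 2 * x₁ * ψ₁ ^ 2 * x₂ * b₂ + 2 * x₁ * ψ₁ ^ 2 * b₄ - 24 * x₁ * ψ₁ * x₂ ^ 2 * ψ₂ - 2 * x₁ * ψ₁ * x₂ * ψ₂ * b₂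
        - 96 * x₁ * x₂ ^ 5 - 16 * x₁ * x₂ ^ 4 * b₂ + 32 * x₁ * x₂ ^ 3 * b₄ + 60 * x₁ * x₂ ^ 2 * ψ₂ ^ 2
        + 8 * x₁ * x₂ ^ 2 * b₂ * b₄ + 48 * x₁ * x₂ ^ 2 * b₆ + 8 * x₁ * x₂ * b₂ * b₆ + 8 * x₁ * x₂ * b₄ ^ 2
        - 10 * x₁ * ψ₂ ^ 2 * b₄ + 8 * x₁ * b₄ * b₆ + ψ₁ ^ 3 * ψ₂ + ψ₁ ^ 2 * x₂ ^ 2 * b₂ + 4 * ψ₁ ^ 2 * x₂ * b₄
        - 2 * ψ₁ ^ 2 * ψ₂ ^ 2 + 3 * ψ₁ ^ 2 * b₆ - 8 * ψ₁ * x₂ ^ 3 * ψ₂ - 4 * ψ₁ * x₂ ^ 2 * ψ₂ * b₂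
        - 10 * ψ₁ * x₂ * ψ₂ * b₄ - 5 * ψ₁ * ψ₂ * b₆ - 8 * x₂ ^ 5 * b₂ - x₂ ^ 4 * b₂ ^ 2 - 32 * x₂ ^ 4 * b₄
        - 8 * x₂ ^ 3 * ψ₂ ^ 2 - 4 * x₂ ^ 3 * b₂ * b₄ - 24 * x₂ ^ 3 * b₆ + 3 * x₂ ^ 2 * ψ₂ ^ 2 * b₂
        - 2 * x₂ ^ 2 * b₂ * b₆ + 6 * x₂ * ψ₂ ^ 2 * b₄ + 4 * x₂ * b₄ * b₆ + 2 * ψ₂ ^ 4 - 2 * ψ₂ ^ 2 * b₆
        + 3 * b₆ ^ 2) * h₁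
    + (-144 * x₁ ^ 5 * x₂ - 12 * x₁ ^ 5 * b₂ + 96 * x₁ ^ 4 * x₂ ^ 2 - 44 * x₁ ^ 4 * x₂ * b₂ - 4 * x₁ ^ 4 * b₂ ^ 2
        - 8 * x₁ ^ 4 * b₄ + 8 * x₁ ^ 3 * ψ₁ * ψ₂ + 32 * x₁ ^ 3 * x₂ ^ 2 * b₂ - 112 * x₁ ^ 3 * x₂ * b₄
        + 8 * x₁ ^ 3 * ψ₂ ^ 2 - 16 * x₁ ^ 3 * b₂ * b₄ + 24 * x₁ ^ 3 * b₆ + 24 * x₁ ^ 2 * ψ₁ * x₂ * ψ₂
        + 4 * x₁ ^ 2 * ψ₁ * ψ₂ * b₂ + x₁ ^ 2 * x₂ ^ 2 * b₂ ^ 2 + 72 * x₁ ^ 2 * x₂ ^ 2 * b₄ - 12 * x₁ ^ 2 * x₂ * ψ₂ ^ 2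
        + 2 * x₁ ^ 2 * x₂ * b₂ * b₄ - 108 * x₁ ^ 2 * x₂ * b₆ + x₁ ^ 2 * ψ₂ ^ 2 * b₂ - 3 * x₁ ^ 2 * b₂ * b₆
        - 20 * x₁ ^ 2 * b₄ ^ 2 - 12 * x₁ * ψ₁ * x₂ ^ 2 * ψ₂ + 2 * x₁ * ψ₁ * x₂ * ψ₂ * b₂ + 10 * x₁ * ψ₁ * ψ₂ * b₄
        + 2 * x₁ * x₂ ^ 2 * b₂ * b₄ + 60 * x₁ * x₂ ^ 2 * b₆ - 2 * x₁ * x₂ * ψ₂ ^ 2 * b₂ - 8 * x₁ * x₂ * b₂ * b₆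
        + 12 * x₁ * x₂ * b₄ ^ 2 - 14 * x₁ * b₄ * b₆ - ψ₁ * x₂ ^ 2 * ψ₂ * b₂ - ψ₁ * ψ₂ ^ 3 + 5 * ψ₁ * ψ₂ * b₆
        + 5 * x₂ ^ 2 * b₂ * b₆ - 4 * x₂ ^ 2 * b₄ ^ 2 - 2 * x₂ * ψ₂ ^ 2 * b₄ + 2 * x₂ * b₄ * b₆
        - ψ₂ ^ 2 * b₆ - 3 * b₆ ^ 2) * h₂

include h₁ h₂ in
/-- chord: `H_Z = - 4 d³ ψ(P - Q)` -/
theorem chord_Z :
    HZ b₂ b₄ b₆ x₁ ψ₁ 1 x₂ ψ₂ 1 = - chT b₂ x₁ ψ₁ x₂ (-ψ₂) := by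
  unfold HZ chT chS
  linear_combination
    (-ψ₁ - 2 * ψ₂) * h₁
    + (-2 * ψ₁ - ψ₂) * h₂

include h₁ in
/-- tangent: `H_Z(P,P) = 8 ψ³` -/
theorem tangent_Z : HZ b₂ b₄ b₆ x₁ ψ₁ 1 x₁ ψ₁ 1 = 8 * ψ₁ ^ 3 := by
  unfold HZ
  linear_combination (-6 * ψ₁) * h₁

include h₁ in
/-- tangent: `H_X(P,P) = 2 ψ (4 ψ² x(2P))` -/
theorem tangent_X : HX b₂ b₄ b₆ x₁ ψ₁ 1 x₁ ψ₁ 1 = 2 * ψ₁ * tgS b₂ b₄ x₁ ψ₁ := by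
  unfold HX tgS
  linear_combination (18 * x₁ * ψ₁ + 2 * ψ₁ * b₂) * h₁

include h₁ in
/-- tangent: `H_Y(P,P) = 2 (4 ψ³ ψ(2P))` -/
theorem tangent_Y : HY b₂ b₄ b₆ x₁ ψ₁ 1 x₁ ψ₁ 1 = 2 * tgT b₂ b₄ x₁ ψ₁ := by
  unfold HY tgT tgS
  linear_combination
    (-108 * x₁ ^ 3 - 27 * x₁ ^ 2 * b₂ - 2 * x₁ * b₂ ^ 2 - 6 * x₁ * b₄ + 9 * ψ₁ ^ 2 - 2 * b₂ * b₄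
        + 9 * b₆) * h₁

end identities


/-! ### The law in the affine coordinates `z = x/ψ`, `w = 1/ψ` (`(X : Y : Z) = (z : 1 : w)`) -/

/-- denominator of the addition law -/
def lawD (b₂ b₄ b₆ z₁ w₁ z₂ w₂ : R) : R := HY b₂ b₄ b₆ z₁ 1 w₁ z₂ 1 w₂

/-- numerator of `z(P + Q)` -/
def lawNz (b₂ b₄ b₆ z₁ w₁ z₂ w₂ : R) : R := HX b₂ b₄ b₆ z₁ 1 w₁ z₂ 1 w₂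

/-- numerator of `w(P + Q)` -/
def lawNw (b₂ b₄ b₆ z₁ w₁ z₂ w₂ : R) : R := HZ b₂ b₄ b₆ z₁ 1 w₁ z₂ 1 w₂

section map

variable {S : Type*} [CommRing S] (φ : R →+* S)

lemma map_HX (b₂ b₄ b₆ X₁ Y₁ Z₁ X₂ Y₂ Z₂ : R) :
    φ (HX b₂ b₄ b₆ X₁ Y₁ Z₁ X₂ Y₂ Z₂)
      = HX (φ b₂) (φ b₄) (φ b₆) (φ X₁) (φ Y₁) (φ Z₁) (φ X₂) (φ Y₂) (φ Z₂) := by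
  simp only [HX, map_add, map_sub, map_mul, map_pow, map_neg, map_ofNat]

lemma map_HY (b₂ b₄ b₆ X₁ Y₁ Z₁ X₂ Y₂ Z₂ : R) :
    φ (HY b₂ b₄ b₆ X₁ Y₁ Z₁ X₂ Y₂ Z₂)
      = HY (φ b₂) (φ b₄) (φ b₆) (φ X₁) (φ Y₁) (φ Z₁) (φ X₂) (φ Y₂) (φ Z₂) := by
  simp only [HY, map_add, map_sub, map_mul, map_pow, map_neg, map_ofNat]

lemma map_HZ (b₂ b₄ b₆ X₁ Y₁ Z₁ X₂ Y₂ Z₂ : R) :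
    φ (HZ b₂ b₄ b₆ X₁ Y₁ Z₁ X₂ Y₂ Z₂)
      = HZ (φ b₂) (φ b₄) (φ b₆) (φ X₁) (φ Y₁) (φ Z₁) (φ X₂) (φ Y₂) (φ Z₂) := by
  simp only [HZ, map_add, map_mul, map_pow, map_ofNat]

lemma map_lawD (b₂ b₄ b₆ z₁ w₁ z₂ w₂ : R) :
    φ (lawD b₂ b₄ b₆ z₁ w₁ z₂ w₂) = lawD (φ b₂) (φ b₄) (φ b₆) (φ z₁) (φ w₁) (φ z₂) (φ w₂) := by
  unfold lawD; rw [map_HY, map_one]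

lemma map_lawNz (b₂ b₄ b₆ z₁ w₁ z₂ w₂ : R) :
    φ (lawNz b₂ b₄ b₆ z₁ w₁ z₂ w₂) = lawNz (φ b₂) (φ b₄) (φ b₆) (φ z₁) (φ w₁) (φ z₂) (φ w₂) := by
  unfold lawNz; rw [map_HX, map_one]

lemma map_lawNw (b₂ b₄ b₆ z₁ w₁ z₂ w₂ : R) :
    φ (lawNw b₂ b₄ b₆ z₁ w₁ z₂ w₂) = lawNw (φ b₂) (φ b₄) (φ b₆) (φ z₁) (φ w₁) (φ z₂) (φ w₂) := by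
  unfold lawNw; rw [map_HZ, map_one]

end map

lemma lawD_zero_left (b₂ b₄ b₆ z w : R) : lawD b₂ b₄ b₆ 0 0 z w = 1 := by
  unfold lawD; rw [HY_zero_left]; ring

lemma lawNz_zero_left (b₂ b₄ b₆ z w : R) : lawNz b₂ b₄ b₆ 0 0 z w = z := by
  unfold lawNz; rw [HX_zero_left]; ring

lemma lawNw_zero_left (b₂ b₄ b₆ z w : R) : lawNw b₂ b₄ b₆ 0 0 z w = w := by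
  unfold lawNw; rw [HZ_zero_left]; ring

lemma lawD_comm (b₂ b₄ b₆ z₁ w₁ z₂ w₂ : R) :
    lawD b₂ b₄ b₆ z₁ w₁ z₂ w₂ = lawD b₂ b₄ b₆ z₂ w₂ z₁ w₁ := HY_comm ..

lemma lawNz_comm (b₂ b₄ b₆ z₁ w₁ z₂ w₂ : R) :
    lawNz b₂ b₄ b₆ z₁ w₁ z₂ w₂ = lawNz b₂ b₄ b₆ z₂ w₂ z₁ w₁ := HX_comm ..

lemma lawNw_comm (b₂ b₄ b₆ z₁ w₁ z₂ w₂ : R) :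
    lawNw b₂ b₄ b₆ z₁ w₁ z₂ w₂ = lawNw b₂ b₄ b₆ z₂ w₂ z₁ w₁ := HZ_comm ..

end Fermat.Agent.Tate.T5.H46
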