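/-
Stmt_Tate part T5, package LAW (helper46): coordinates `z = x/ψ`, `w = 1/ψ` on the points of a
Weierstrass curve over a field (`ψ = 2y + a₁x + a₃`), and the exact interface of the package
(consumer: helper4, T5 assembly):
* `Stmt_L1` : `D(P,Q) · z(P+Q) = N_z(P,Q)` and `D(P,Q) · w(P+Q) = N_w(P,Q)`;
* `Stmt_L2` : `D(P,Q) ≠ 0`,
for points `P, Q` such that none of `P, Q, P + Q` (and `P - Q` for L2) has exact order `2`.
The polynomials `lawD, lawNz, lawNw` (integer coefficients in `b₂, b₄, b₆`) are in `H46_LawAlg`.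
-/
import Mathlib.AlgebraicGeometry.EllipticCurve.Affine.Point
import Fermat.Agent.Tate.T5.H46_LawAlg

set_option autoImplicit false

namespace Fermat.Agent.Tate.T5.H46

open WeierstrassCurve WeierstrassCurve.Affine

variable {F : Type*} [Field F]

/-- `ψ = 2y + a₁x + a₃`. -/
def psi (W : Affine F) (x y : F) : F := 2 * y + W.a₁ * x + W.a₃

/-- The coordinate `z = x/ψ` (`0` at the origin). -/
def zc {W : Affine F} : W.Point → F
  | .zero => 0
  | .some x y _ => x / psi W x y

/-- The coordinate `w = 1/ψ` (`0` at the origin). -/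
def wc {W : Affine F} : W.Point → F
  | .zero => 0
  | .some x y _ => 1 / psi W x y

@[simp] lemma zc_zero {W : Affine F} : zc (0 : W.Point) = 0 := rfl
@[simp] lemma wc_zero {W : Affine F} : wc (0 : W.Point) = 0 := rfl
lemma zc_some {W : Affine F} {x y : F} (h : W.Nonsingular x y) :
    zc (Point.some x y h) = x / psi W x y := rfl
lemma wc_some {W : Affine F} {x y : F} (h : W.Nonsingular x y) :
    wc (Point.some x y h) = 1 / psi W x y := rfl

/-- (L1) the addition law computes the coordinates of `P + Q`. -/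
def Stmt_L1 : Prop :=
  ∀ (F : Type) [Field F] [DecidableEq F] (W : Affine F), (2 : F) ≠ 0 →
    ∀ P Q : W.Point, (2 • P = 0 → P = 0) → (2 • Q = 0 → Q = 0) →
      (2 • (P + Q) = 0 → P + Q = 0) →
      lawD W.b₂ W.b₄ W.b₆ (zc P) (wc P) (zc Q) (wc Q) * zc (P + Q)
          = lawNz W.b₂ W.b₄ W.b₆ (zc P) (wc P) (zc Q) (wc Q) ∧
        lawD W.b₂ W.b₄ W.b₆ (zc P) (wc P) (zc Q) (wc Q) * wc (P + Q)
          = lawNw W.b₂ W.b₄ W.b₆ (zc P) (wc P) (zc Q) (wc Q)

/-- (L2) the denominator of the addition law does not vanish. -/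
def Stmt_L2 : Prop :=
  ∀ (F : Type) [Field F] [DecidableEq F] (W : Affine F), (2 : F) ≠ 0 →
    ∀ P Q : W.Point, (2 • P = 0 → P = 0) → (2 • Q = 0 → Q = 0) →
      (2 • (P + Q) = 0 → P + Q = 0) → (2 • (P - Q) = 0 → P - Q = 0) →
      lawD W.b₂ W.b₄ W.b₆ (zc P) (wc P) (zc Q) (wc Q) ≠ 0

end Fermat.Agent.Tate.T5.H46
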