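/-
Stmt_Tate part T5, package LAW (helper46): the complete addition law in the coordinates
`z = x/ψ`, `w = 1/ψ` against the group law of Mathlib, over any field with `2 ≠ 0`:
`law_add` (= `Stmt_L1`) and `lawD_ne_zero` (= `Stmt_L2`).
-/
import Fermat.Agent.Tate.T5.H46_LawDefs
import Mathlib.Tactic.FieldSimp

set_option autoImplicit false

namespace Fermat.Agent.Tate.T5.H46

open WeierstrassCurve WeierstrassCurve.Affine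

variable {F : Type*} [Field F] {W : Affine F}

/-! ### `ψ` -/

lemma psi_sq {x y : F} (h : W.Equation x y) :
    (psi W x y) ^ 2 = 4 * x ^ 3 + W.b₂ * x ^ 2 + 2 * W.b₄ * x + W.b₆ := by
  rw [equation_iff] at h
  unfold psi
  rw [WeierstrassCurve.b₂, WeierstrassCurve.b₄, WeierstrassCurve.b₆]
  linear_combination 4 * h

lemma psi_negY (x y : F) : psi W x (W.negY x y) = - psi W x y := by
  unfold psi
  rw [negY]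
  ring

lemma sub_negY_eq_psi (x y : F) : y - W.negY x y = psi W x y := by
  unfold psi
  rw [negY]
  ring

lemma psi_eq_zero_iff (x y : F) : psi W x y = 0 ↔ y = W.negY x y := by
  rw [← sub_negY_eq_psi, sub_eq_zero]

/-- `ψ` of the third point on the line of slope `ℓ` through `(x₁, y₁)`. -/
lemma psi_add (x₁ x₂ y₁ ℓ : F) :
    psi W (W.addX x₁ x₂ ℓ) (W.addY x₁ x₂ y₁ ℓ)
      = -(2 * ℓ + W.a₁) * (W.addX x₁ x₂ ℓ - x₁) - psi W x₁ y₁ := by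
  unfold psi
  rw [addY, negAddY, negY]
  ring

lemma four_mul_addX (x₁ x₂ ℓ : F) :
    4 * W.addX x₁ x₂ ℓ = (2 * ℓ + W.a₁) ^ 2 - W.b₂ - 4 * x₁ - 4 * x₂ := by
  rw [addX, WeierstrassCurve.b₂]
  ring

variable [DecidableEq F]

lemma slope_mul_of_X_ne {x₁ x₂ : F} (y₁ y₂ : F) (hx : x₁ ≠ x₂) :
    (2 * W.slope x₁ x₂ y₁ y₂ + W.a₁) * (x₁ - x₂) = psi W x₁ y₁ - psi W x₂ y₂ := by
  have hd : x₁ - x₂ ≠ 0 := sub_ne_zero.2 hx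
  rw [slope_of_X_ne hx]
  unfold psi
  field_simp
  ring

lemma slope_mul_self {x y : F} (hy : y ≠ W.negY x y) :
    (2 * W.slope x x y y + W.a₁) * psi W x y = 6 * x ^ 2 + W.b₂ * x + W.b₄ := by
  have hψ : psi W x y ≠ 0 := fun h0 => hy ((psi_eq_zero_iff x y).1 h0)
  rw [slope_of_Y_ne rfl hy, sub_negY_eq_psi, add_mul, mul_assoc, div_mul_cancel₀ _ hψ,
    WeierstrassCurve.b₂, WeierstrassCurve.b₄]
  unfold psi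
  ring

/-- A point which is not of exact order `2` has `ψ ≠ 0`. -/
lemma psi_ne_zero {x y : F} {h : W.Nonsingular x y}
    (h2 : 2 • Point.some x y h = 0 → Point.some x y h = 0) : psi W x y ≠ 0 := by
  intro h0
  rw [psi_eq_zero_iff] at h0
  have h1 : 2 • Point.some x y h = 0 := by
    rw [two_nsmul]
    exact Point.add_self_of_Y_eq h0
  exact Point.some_ne_zero h (h2 h1)

/-! ### The sum in the coordinates `(x, ψ)` -/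

/-- chord: `4 d² x(P+Q)` -/
lemma four_mul_addX_of_X_ne {x₁ x₂ : F} (y₁ y₂ : F) (hx : x₁ ≠ x₂) :
    4 * (x₁ - x₂) ^ 2 * W.addX x₁ x₂ (W.slope x₁ x₂ y₁ y₂)
      = chS W.b₂ x₁ (psi W x₁ y₁) x₂ (psi W x₂ y₂) := by
  have h4 := four_mul_addX (W := W) x₁ x₂ (W.slope x₁ x₂ y₁ y₂)
  have hΛ := slope_mul_of_X_ne (W := W) y₁ y₂ hx
  unfold chS
  linear_combination (x₁ - x₂) ^ 2 * h4
    + ((2 * W.slope x₁ x₂ y₁ y₂ + W.a₁) * (x₁ - x₂) + (psi W x₁ y₁ - psi W x₂ y₂)) * hΛ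

/-- chord: `4 d³ ψ(P+Q)` -/
lemma four_mul_psi_add_of_X_ne {x₁ x₂ : F} (y₁ y₂ : F) (hx : x₁ ≠ x₂) :
    4 * (x₁ - x₂) ^ 3 * psi W (W.addX x₁ x₂ (W.slope x₁ x₂ y₁ y₂))
        (W.addY x₁ x₂ y₁ (W.slope x₁ x₂ y₁ y₂))
      = chT W.b₂ x₁ (psi W x₁ y₁) x₂ (psi W x₂ y₂) := by
  have hS := four_mul_addX_of_X_ne (W := W) y₁ y₂ hx
  have hΛ := slope_mul_of_X_ne (W := W) y₁ y₂ hx
  rw [psi_add, chT, ← hS]
  linear_combination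
    (-(4 * (x₁ - x₂) ^ 2 * (W.addX x₁ x₂ (W.slope x₁ x₂ y₁ y₂) - x₁))) * hΛ

/-- tangent: `4 ψ² x(2P)` -/
lemma four_mul_addX_self {x y : F} (hy : y ≠ W.negY x y) :
    4 * (psi W x y) ^ 2 * W.addX x x (W.slope x x y y)
      = tgS W.b₂ W.b₄ x (psi W x y) := by
  have h4 := four_mul_addX (W := W) x x (W.slope x x y y)
  have hΛ := slope_mul_self (W := W) hy
  unfold tgS
  linear_combination (psi W x y) ^ 2 * h4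
    + ((2 * W.slope x x y y + W.a₁) * psi W x y + (6 * x ^ 2 + W.b₂ * x + W.b₄)) * hΛ

/-- tangent: `4 ψ³ ψ(2P)` -/
lemma four_mul_psi_add_self {x y : F} (hy : y ≠ W.negY x y) :
    4 * (psi W x y) ^ 3 * psi W (W.addX x x (W.slope x x y y))
        (W.addY x x y (W.slope x x y y))
      = tgT W.b₂ W.b₄ x (psi W x y) := by
  have hS := four_mul_addX_self (W := W) hy
  have hΛ := slope_mul_self (W := W) hy
  rw [psi_add, tgT, ← hS]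
  linear_combination
    (-(4 * (psi W x y) ^ 2 * (W.addX x x (W.slope x x y y) - x))) * hΛ


/-! ### The law on affine points, homogeneous form -/

omit [DecidableEq F] in
lemma lawD_div (b₂ b₄ b₆ x₁ x₂ : F) {ψ₁ ψ₂ : F} (h₁ : ψ₁ ≠ 0) (h₂ : ψ₂ ≠ 0) :
    lawD b₂ b₄ b₆ (x₁ / ψ₁) (1 / ψ₁) (x₂ / ψ₂) (1 / ψ₂)
      = HY b₂ b₄ b₆ x₁ ψ₁ 1 x₂ ψ₂ 1 / (ψ₁ ^ 2 * ψ₂ ^ 2) := by
  have h := HY_homog b₂ b₄ b₆ (x₁ / ψ₁) 1 (1 / ψ₁) (x₂ / ψ₂) 1 (1 / ψ₂) ψ₁ ψ₂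
  rw [mul_div_cancel₀ _ h₁, mul_div_cancel₀ _ h₁, mul_div_cancel₀ _ h₂, mul_div_cancel₀ _ h₂,
    mul_one, mul_one] at h
  unfold lawD
  rw [h, mul_div_cancel_left₀]
  exact mul_ne_zero (pow_ne_zero _ h₁) (pow_ne_zero _ h₂)

omit [DecidableEq F] in
lemma lawNz_div (b₂ b₄ b₆ x₁ x₂ : F) {ψ₁ ψ₂ : F} (h₁ : ψ₁ ≠ 0) (h₂ : ψ₂ ≠ 0) :
    lawNz b₂ b₄ b₆ (x₁ / ψ₁) (1 / ψ₁) (x₂ / ψ₂) (1 / ψ₂)
      = HX b₂ b₄ b₆ x₁ ψ₁ 1 x₂ ψ₂ 1 / (ψ₁ ^ 2 * ψ₂ ^ 2) := by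
  have h := HX_homog b₂ b₄ b₆ (x₁ / ψ₁) 1 (1 / ψ₁) (x₂ / ψ₂) 1 (1 / ψ₂) ψ₁ ψ₂
  rw [mul_div_cancel₀ _ h₁, mul_div_cancel₀ _ h₁, mul_div_cancel₀ _ h₂, mul_div_cancel₀ _ h₂,
    mul_one, mul_one] at h
  unfold lawNz
  rw [h, mul_div_cancel_left₀]
  exact mul_ne_zero (pow_ne_zero _ h₁) (pow_ne_zero _ h₂)

omit [DecidableEq F] in
lemma lawNw_div (b₂ b₄ b₆ x₁ x₂ : F) {ψ₁ ψ₂ : F} (h₁ : ψ₁ ≠ 0) (h₂ : ψ₂ ≠ 0) :
    lawNw b₂ b₄ b₆ (x₁ / ψ₁) (1 / ψ₁) (x₂ / ψ₂) (1 / ψ₂)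
      = HZ b₂ b₄ b₆ x₁ ψ₁ 1 x₂ ψ₂ 1 / (ψ₁ ^ 2 * ψ₂ ^ 2) := by
  have h := HZ_homog b₂ b₄ b₆ (x₁ / ψ₁) 1 (1 / ψ₁) (x₂ / ψ₂) 1 (1 / ψ₂) ψ₁ ψ₂
  rw [mul_div_cancel₀ _ h₁, mul_div_cancel₀ _ h₁, mul_div_cancel₀ _ h₂, mul_div_cancel₀ _ h₂,
    mul_one, mul_one] at h
  unfold lawNw
  rw [h, mul_div_cancel_left₀]
  exact mul_ne_zero (pow_ne_zero _ h₁) (pow_ne_zero _ h₂)

/-- The homogeneous law on two affine points with `P ≠ -Q`: `H = H_Z · (x₃ : ψ₃ : 1)`. -/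
theorem law_affine (h2 : (2 : F) ≠ 0) {x₁ y₁ x₂ y₂ : F} (h₁ : W.Equation x₁ y₁)
    (h₂ : W.Equation x₂ y₂) (hxy : ¬(x₁ = x₂ ∧ y₁ = W.negY x₂ y₂)) :
    HX W.b₂ W.b₄ W.b₆ x₁ (psi W x₁ y₁) 1 x₂ (psi W x₂ y₂) 1
        = W.addX x₁ x₂ (W.slope x₁ x₂ y₁ y₂)
          * HZ W.b₂ W.b₄ W.b₆ x₁ (psi W x₁ y₁) 1 x₂ (psi W x₂ y₂) 1 ∧
      HY W.b₂ W.b₄ W.b₆ x₁ (psi W x₁ y₁) 1 x₂ (psi W x₂ y₂) 1
        = psi W (W.addX x₁ x₂ (W.slope x₁ x₂ y₁ y₂)) (W.addY x₁ x₂ y₁ (W.slope x₁ x₂ y₁ y₂))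
          * HZ W.b₂ W.b₄ W.b₆ x₁ (psi W x₁ y₁) 1 x₂ (psi W x₂ y₂) 1 := by
  have h4 : (4 : F) ≠ 0 := by
    have : (4 : F) = 2 * 2 := by norm_num
    rw [this]; exact mul_ne_zero h2 h2
  have e₁ := psi_sq h₁
  have e₂ := psi_sq h₂
  by_cases hx : x₁ = x₂
  · -- tangent
    have hy : y₁ ≠ W.negY x₂ y₂ := fun h => hxy ⟨hx, h⟩
    have hyy : y₁ = y₂ := Y_eq_of_Y_ne h₁ h₂ hx hy
    subst hx hyy
    have hψ : psi W x₁ y₁ ≠ 0 := fun h0 => hy ((psi_eq_zero_iff x₁ y₁).1 h0)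
    have hS := four_mul_addX_self (W := W) hy
    have hT := four_mul_psi_add_self (W := W) hy
    have tX := tangent_X W.b₂ W.b₄ W.b₆ x₁ (psi W x₁ y₁) e₁
    have tY := tangent_Y W.b₂ W.b₄ W.b₆ x₁ (psi W x₁ y₁) e₁
    have tZ := tangent_Z W.b₂ W.b₄ W.b₆ x₁ (psi W x₁ y₁) e₁
    constructor
    · rw [tX, tZ, ← hS]; ring
    · rw [tY, tZ, ← hT]; ring
  · -- chord
    have hd : x₁ - x₂ ≠ 0 := sub_ne_zero.2 hx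
    have hS := four_mul_addX_of_X_ne (W := W) y₁ y₂ hx
    have hT := four_mul_psi_add_of_X_ne (W := W) y₁ y₂ hx
    have cX := chord_X W.b₂ W.b₄ W.b₆ x₁ (psi W x₁ y₁) x₂ (psi W x₂ y₂) e₁ e₂
    have cY := chord_Y W.b₂ W.b₄ W.b₆ x₁ (psi W x₁ y₁) x₂ (psi W x₂ y₂) e₁ e₂
    constructor
    · apply mul_left_cancel₀ (mul_ne_zero h4 (pow_ne_zero 2 hd))
      rw [cX, ← hS]; ring
    · apply mul_left_cancel₀ (mul_ne_zero h4 (pow_ne_zero 3 hd))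
      rw [cY, ← hT]; ring

/-- chord case: `H_Z = - 4 d³ ψ(P - Q)`. -/
theorem HZ_chord {x₁ y₁ x₂ y₂ : F} (h₁ : W.Equation x₁ y₁)
    (h₂ : W.Equation x₂ y₂) (hx : x₁ ≠ x₂) :
    HZ W.b₂ W.b₄ W.b₆ x₁ (psi W x₁ y₁) 1 x₂ (psi W x₂ y₂) 1
      = -(4 * (x₁ - x₂) ^ 3 * psi W (W.addX x₁ x₂ (W.slope x₁ x₂ y₁ (W.negY x₂ y₂)))
          (W.addY x₁ x₂ y₁ (W.slope x₁ x₂ y₁ (W.negY x₂ y₂)))) := by
  rw [four_mul_psi_add_of_X_ne (W := W) y₁ (W.negY x₂ y₂) hx, psi_negY]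
  exact chord_Z W.b₂ W.b₄ W.b₆ x₁ (psi W x₁ y₁) x₂ (psi W x₂ y₂) (psi_sq h₁) (psi_sq h₂)


/-! ### The theorems -/

omit [DecidableEq F] in
lemma neg_coords {x₁ y₁ x₂ y₂ : F} (hx : x₁ = x₂) (hy : y₁ = W.negY x₂ y₂) :
    x₂ / psi W x₂ y₂ = -(x₁ / psi W x₁ y₁) ∧ 1 / psi W x₂ y₂ = -(1 / psi W x₁ y₁) := by
  have hψ : psi W x₁ y₁ = - psi W x₂ y₂ := by rw [hy, hx, psi_negY]
  rw [hψ, hx]
  constructor
  · rw [div_neg, neg_neg]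
  · rw [div_neg, neg_neg]

omit [DecidableEq F] in
lemma lawNz_neg (b₂ b₄ b₆ z w : F) : lawNz b₂ b₄ b₆ z w (-z) (-w) = 0 := by
  have h := HX_homog b₂ b₄ b₆ z 1 w z (-1) w 1 (-1)
  rw [HX_neg] at h
  unfold lawNz
  have e : HX b₂ b₄ b₆ z 1 w (-z) 1 (-w)
      = HX b₂ b₄ b₆ (1 * z) (1 * 1) (1 * w) (-1 * z) (-1 * -1) (-1 * w) := by
    congr 1 <;> ring
  rw [e, h]; ring

omit [DecidableEq F] in
lemma lawNw_neg (b₂ b₄ b₆ z w : F) : lawNw b₂ b₄ b₆ z w (-z) (-w) = 0 := by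
  have h := HZ_homog b₂ b₄ b₆ z 1 w z (-1) w 1 (-1)
  rw [HZ_neg] at h
  unfold lawNw
  have e : HZ b₂ b₄ b₆ z 1 w (-z) 1 (-w)
      = HZ b₂ b₄ b₆ (1 * z) (1 * 1) (1 * w) (-1 * z) (-1 * -1) (-1 * w) := by
    congr 1 <;> ring
  rw [e, h]; ring

omit [DecidableEq F] in
lemma lawD_neg (b₂ b₄ b₆ z w : F) :
    lawD b₂ b₄ b₆ z w (-z) (-w) = lawD b₂ b₄ b₆ z w z w := by
  have h := HY_homog b₂ b₄ b₆ z 1 w z (-1) w 1 (-1)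
  rw [HY_neg_right] at h
  unfold lawD
  have e : HY b₂ b₄ b₆ z 1 w (-z) 1 (-w)
      = HY b₂ b₄ b₆ (1 * z) (1 * 1) (1 * w) (-1 * z) (-1 * -1) (-1 * w) := by
    congr 1 <;> ring
  rw [e, h]; ring

/-- **(L1)** the complete addition law computes the coordinates `z, w` of `P + Q`. -/
theorem law_add (h2 : (2 : F) ≠ 0) (P Q : W.Point) (hP : 2 • P = 0 → P = 0)
    (hQ : 2 • Q = 0 → Q = 0) (hPQ : 2 • (P + Q) = 0 → P + Q = 0) :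
    lawD W.b₂ W.b₄ W.b₆ (zc P) (wc P) (zc Q) (wc Q) * zc (P + Q)
        = lawNz W.b₂ W.b₄ W.b₆ (zc P) (wc P) (zc Q) (wc Q) ∧
      lawD W.b₂ W.b₄ W.b₆ (zc P) (wc P) (zc Q) (wc Q) * wc (P + Q)
        = lawNw W.b₂ W.b₄ W.b₆ (zc P) (wc P) (zc Q) (wc Q) := by
  rcases P with _ | ⟨x₁, y₁, h₁⟩
  · have e : (Point.zero : W.Point) + Q = Q := zero_add Q
    rw [e]
    show lawD W.b₂ W.b₄ W.b₆ 0 0 (zc Q) (wc Q) * zc Q = lawNz W.b₂ W.b₄ W.b₆ 0 0 (zc Q) (wc Q) ∧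
      lawD W.b₂ W.b₄ W.b₆ 0 0 (zc Q) (wc Q) * wc Q = lawNw W.b₂ W.b₄ W.b₆ 0 0 (zc Q) (wc Q)
    rw [lawD_zero_left, lawNz_zero_left, lawNw_zero_left, one_mul, one_mul]
    exact ⟨rfl, rfl⟩
  rcases Q with _ | ⟨x₂, y₂, h₂⟩
  · have e : Point.some x₁ y₁ h₁ + (Point.zero : W.Point) = Point.some x₁ y₁ h₁ := add_zero _
    rw [e]
    show lawD W.b₂ W.b₄ W.b₆ (zc (Point.some x₁ y₁ h₁)) (wc (Point.some x₁ y₁ h₁)) 0 0 * _ =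
        lawNz W.b₂ W.b₄ W.b₆ (zc (Point.some x₁ y₁ h₁)) (wc (Point.some x₁ y₁ h₁)) 0 0 ∧
      lawD W.b₂ W.b₄ W.b₆ (zc (Point.some x₁ y₁ h₁)) (wc (Point.some x₁ y₁ h₁)) 0 0 * _ =
        lawNw W.b₂ W.b₄ W.b₆ (zc (Point.some x₁ y₁ h₁)) (wc (Point.some x₁ y₁ h₁)) 0 0
    rw [lawD_comm, lawNz_comm, lawNw_comm, lawD_zero_left, lawNz_zero_left, lawNw_zero_left,
      one_mul, one_mul]
    exact ⟨rfl, rfl⟩
  have hψ₁ := psi_ne_zero hP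
  have hψ₂ := psi_ne_zero hQ
  by_cases hxy : x₁ = x₂ ∧ y₁ = W.negY x₂ y₂
  · rw [Point.add_of_Y_eq hxy.1 hxy.2]
    obtain ⟨ez, ew⟩ := neg_coords (W := W) hxy.1 hxy.2
    rw [zc_zero, wc_zero, mul_zero, zc_some, wc_some, zc_some, wc_some, ez, ew, lawNz_neg,
      lawNw_neg]
    exact ⟨rfl, rfl⟩
  · rw [Point.add_some hxy] at hPQ ⊢
    have hψ₃ := psi_ne_zero hPQ
    obtain ⟨eX, eY⟩ := law_affine h2 h₁.1 h₂.1 hxy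
    rw [zc_some, wc_some, zc_some, wc_some, zc_some, wc_some, lawD_div _ _ _ _ _ hψ₁ hψ₂,
      lawNz_div _ _ _ _ _ hψ₁ hψ₂, lawNw_div _ _ _ _ _ hψ₁ hψ₂, eX, eY]
    constructor
    · field_simp
    · field_simp

/-- **(L2)** the denominator of the complete addition law does not vanish. -/
theorem lawD_ne_zero (h2 : (2 : F) ≠ 0) (P Q : W.Point) (hP : 2 • P = 0 → P = 0)
    (hQ : 2 • Q = 0 → Q = 0) (hPQ : 2 • (P + Q) = 0 → P + Q = 0)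
    (hPQ' : 2 • (P - Q) = 0 → P - Q = 0) :
    lawD W.b₂ W.b₄ W.b₆ (zc P) (wc P) (zc Q) (wc Q) ≠ 0 := by
  have h4 : (4 : F) ≠ 0 := by
    have : (4 : F) = 2 * 2 := by norm_num
    rw [this]; exact mul_ne_zero h2 h2
  have h8 : (8 : F) ≠ 0 := by
    have : (8 : F) = 2 * 4 := by norm_num
    rw [this]; exact mul_ne_zero h2 h4
  rcases P with _ | ⟨x₁, y₁, h₁⟩
  · show lawD W.b₂ W.b₄ W.b₆ 0 0 (zc Q) (wc Q) ≠ 0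
    rw [lawD_zero_left]
    exact one_ne_zero
  rcases Q with _ | ⟨x₂, y₂, h₂⟩
  · show lawD W.b₂ W.b₄ W.b₆ (zc (Point.some x₁ y₁ h₁)) (wc (Point.some x₁ y₁ h₁)) 0 0 ≠ 0
    rw [lawD_comm, lawD_zero_left]
    exact one_ne_zero
  have hψ₁ := psi_ne_zero hP
  have hψ₂ := psi_ne_zero hQ
  have hy₁ : y₁ ≠ W.negY x₁ y₁ := fun h => hψ₁ ((psi_eq_zero_iff x₁ y₁).2 h)
  -- the tangent value
  have tang : ∀ (h3 : 2 • (Point.some x₁ y₁ h₁ + Point.some x₁ y₁ h₁) = 0 →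
      Point.some x₁ y₁ h₁ + Point.some x₁ y₁ h₁ = 0),
      lawD W.b₂ W.b₄ W.b₆ (x₁ / psi W x₁ y₁) (1 / psi W x₁ y₁) (x₁ / psi W x₁ y₁)
        (1 / psi W x₁ y₁) ≠ 0 := by
    intro h3
    rw [Point.add_self_of_Y_ne hy₁] at h3
    have hψ₃ := psi_ne_zero h3
    obtain ⟨-, eY⟩ := law_affine h2 h₁.1 h₁.1 (fun h => hy₁ h.2)
    rw [lawD_div _ _ _ _ _ hψ₁ hψ₁, eY, tangent_Z W.b₂ W.b₄ W.b₆ x₁ (psi W x₁ y₁) (psi_sq h₁.1)]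
    exact div_ne_zero (mul_ne_zero hψ₃ (mul_ne_zero h8 (pow_ne_zero 3 hψ₁)))
      (mul_ne_zero (pow_ne_zero 2 hψ₁) (pow_ne_zero 2 hψ₁))
  by_cases hxy : x₁ = x₂ ∧ y₁ = W.negY x₂ y₂
  · -- `Q = -P`, `P - Q = 2P`
    obtain ⟨ez, ew⟩ := neg_coords (W := W) hxy.1 hxy.2
    rw [zc_some, wc_some, zc_some, wc_some, ez, ew, lawD_neg]
    apply tang
    have e : Point.some x₁ y₁ h₁ - Point.some x₂ y₂ h₂
        = Point.some x₁ y₁ h₁ + Point.some x₁ y₁ h₁ := by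
      rw [sub_eq_add_neg, Point.neg_some]
      congr 1
      exact (Point.some.injEq ..).mpr ⟨hxy.1.symm, hxy.2.symm⟩ |>.symm ▸ rfl
    rw [e] at hPQ'
    exact hPQ'
  · rw [Point.add_some hxy] at hPQ
    have hψ₃ := psi_ne_zero hPQ
    obtain ⟨-, eY⟩ := law_affine h2 h₁.1 h₂.1 hxy
    by_cases hx : x₁ = x₂
    · -- tangent
      have hy : y₁ ≠ W.negY x₂ y₂ := fun h => hxy ⟨hx, h⟩
      have hyy : y₁ = y₂ := Y_eq_of_Y_ne h₁.1 h₂.1 hx hy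
      subst hx hyy
      rw [zc_some, wc_some]
      apply tang
      rw [Point.add_some hxy]
      exact hPQ
    · -- chord
      have hd : x₁ - x₂ ≠ 0 := sub_ne_zero.2 hx
      rw [sub_eq_add_neg, Point.neg_some, Point.add_of_X_ne hx] at hPQ'
      have hψ₄ := psi_ne_zero hPQ'
      rw [zc_some, wc_some, zc_some, wc_some, lawD_div _ _ _ _ _ hψ₁ hψ₂, eY,
        HZ_chord h₁.1 h₂.1 hx]
      exact div_ne_zero (mul_ne_zero hψ₃ (neg_ne_zero.2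
        (mul_ne_zero (mul_ne_zero h4 (pow_ne_zero 3 hd)) hψ₄)))
        (mul_ne_zero (pow_ne_zero 2 hψ₁) (pow_ne_zero 2 hψ₂))

theorem stmt_L1 : Stmt_L1 := fun _ _ _ _ h2 P Q hP hQ hPQ => law_add h2 P Q hP hQ hPQ

theorem stmt_L2 : Stmt_L2 := fun _ _ _ _ h2 P Q hP hQ hPQ hPQ' =>
  lawD_ne_zero h2 P Q hP hQ hPQ hPQ'

end Fermat.Agent.Tate.T5.H46
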