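/-
Stmt_Tate part T5 (flat at a good odd prime), package C interface + assembly target (helper4).

* `Stmt_C` : what the assembly needs from the valuation theory: on the `p^k`-torsion of `E(Q̄)`
  the chart coordinates `z = x/ψ`, `w = 1/ψ` (helper46's `H46.zc`, `H46.wc`) are integral at a
  valuation subring `A` of `Q̄` over `p`, and the denominator `lawD` of the complete addition law
  has its inverse in `A`.
* `Stmt_T5odd` : `Stmt_T5` for `p ≠ 2`.
-/
import Fermat.Agent.Tate.Defs
import Fermat.Agent.Tate.T5.H46_LawDefs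

set_option autoImplicit false

namespace Fermat.Agent.Tate.T5.H4

open WeierstrassCurve WeierstrassCurve.Affine
open Fermat.Agent.Tate Fermat.Agent.Tate.T5.H46

/-- The curve over `Q̄`. -/
noncomputable abbrev WQbar (W : WeierstrassCurve ℤ) : Affine (AlgebraicClosure ℚ) :=
  (W.map (Int.castRingHom ℚ)).toAffine⁄(AlgebraicClosure ℚ)

/-- The denominator of the complete addition law at a pair of points of `E(Q̄)`. -/
noncomputable def denom (W : WeierstrassCurve ℤ) (P Q : EQbar W) : AlgebraicClosure ℚ :=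
  lawD (WQbar W).b₂ (WQbar W).b₄ (WQbar W).b₆ (zc P) (wc P) (zc Q) (wc Q)

/-- **C** (valuations): integrality of the chart on the `p^k`-torsion and of the inverse of the
denominator of the addition law, at a valuation subring over a good odd prime `p`. -/
def Stmt_C : Prop :=
  ∀ (W : WeierstrassCurve ℤ), W.Δ ≠ 0 → ∀ (p : ℕ), p.Prime → p ≠ 2 → W.IsGoodPrimeFor p →
    ∀ (A : ValuationSubring (AlgebraicClosure ℚ)), A.LiesOverPrime p →
      ∀ (k : ℕ) (P Q : EQbar W), (p ^ k) • P = 0 → (p ^ k) • Q = 0 →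
        zc P ∈ A ∧ wc P ∈ A ∧ (denom W P Q)⁻¹ ∈ A

/-- **T5** for odd `p`: flat at `p` if `p` is good. -/
def Stmt_T5odd : Prop :=
  ∀ (W : WeierstrassCurve ℤ), W.Δ ≠ 0 → ∀ (p : ℕ) [Fact p.Prime], p ≠ 2 → ∀ (D : TateData W p),
    W.IsGoodPrimeFor p → D.ρ.IsFlatAt p

end Fermat.Agent.Tate.T5.H4
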