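/-
Stmt_Tate part T5 (flat at a good odd prime), ASSEMBLY (helper4).

`stmt_T5odd_of : Stmt_C → Stmt_T5odd`: from the valuation input `Stmt_C` (chart coordinates of the
`p^k`-torsion integral, denominator of the addition law a unit) to `IsFlatAt p` of the Tate module.

Ingredients: helper18's generator criterion `Lib.HopfOrder.flat_of_generators` applied to the
finite group `M := V / p^k V` ITSELF with the action `levelAction`, generators
`z ∘ lev̄`, `w ∘ lev̄` (helper46's chart `z = x/ψ`, `w = 1/ψ`), and helper46's complete addition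
law `law_add`, `lawD_ne_zero`.  Also `stmt_Tate_of_odd`: the wiring of `Stmt_Tate` with `Stmt_T5odd`.
-/
import Fermat.Agent.Tate.T5.H4_AsmDefs
import Fermat.Agent.Tate.T5.H46_Law
import Fermat.Agent.Tate.Bridge
import Fermat.Agent.Lib.HopfOrderGen
import Fermat.Agent.Lib.FrobExists

set_option autoImplicit false

namespace Fermat.Agent.Tate.T5.H4

open WeierstrassCurve WeierstrassCurve.Affine
open Fermat.Agent.Tate Fermat.Agent.Tate.T5.H46

section chart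

variable {F : Type*} [Field F] [DecidableEq F] {W : Affine F}

/-- A point killed by an odd number is not of exact order `2`. -/
lemma not_two_of_odd {G : Type*} [AddCommGroup G] {n : ℕ} (hn : Odd n) {P : G} (hP : n • P = 0)
    (h2 : 2 • P = 0) : P = 0 := by
  obtain ⟨m, rfl⟩ := hn
  have : (2 * m + 1) • P = m • (2 • P) + P := by
    rw [add_smul, one_smul, mul_comm, mul_smul]
  rw [this, h2, smul_zero, zero_add] at hP
  exact hP

/-- The chart `(z, w)` is injective on the points which are not of exact order `2`. -/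
lemma eq_of_chart_eq (h2 : (2 : F) ≠ 0) {P Q : W.Point} (hP : 2 • P = 0 → P = 0)
    (hQ : 2 • Q = 0 → Q = 0) (hz : zc P = zc Q) (hw : wc P = wc Q) : P = Q := by
  rcases P with _ | ⟨x₁, y₁, h₁⟩
  · rcases Q with _ | ⟨x₂, y₂, h₂⟩
    · rfl
    · exfalso
      have hψ := psi_ne_zero hQ
      have : wc (Point.some x₂ y₂ h₂) = 0 := hw.symm
      rw [wc_some] at this
      exact one_div_ne_zero hψ this
  · rcases Q with _ | ⟨x₂, y₂, h₂⟩
    · exfalso
      have hψ := psi_ne_zero hP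
      have : wc (Point.some x₁ y₁ h₁) = 0 := hw
      rw [wc_some] at this
      exact one_div_ne_zero hψ this
    · have hψ₁ := psi_ne_zero hP
      have hψ₂ := psi_ne_zero hQ
      rw [wc_some, wc_some] at hw
      rw [zc_some, zc_some] at hz
      have e1 : psi W x₁ y₁ = psi W x₂ y₂ := by
        have := congrArg (fun t => t⁻¹) hw
        simpa using this
      have e2 : x₁ = x₂ := by
        rw [e1] at hz
        field_simp at hz
        exact hz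
      subst e2
      have e3 : y₁ = y₂ := by
        unfold psi at e1
        have : 2 * y₁ = 2 * y₂ := by linear_combination e1
        exact mul_left_cancel₀ h2 this
      subst e3
      rfl

end chart

section galois

variable (W : WeierstrassCurve ℤ)

lemma psi_smul (σ : GQ) (x y : AlgebraicClosure ℚ) :
    psi (WQbar W) (σ x) (σ y) = σ (psi (WQbar W) x y) := by
  unfold psi
  simp only [map_add, map_mul, map_ofNat]
  congr 2
  · simp [WeierstrassCurve.map, WeierstrassCurve.baseChange]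
  · simp [WeierstrassCurve.map, WeierstrassCurve.baseChange]

lemma zc_smul (σ : GQ) (P : EQbar W) : zc (σ • P) = σ (zc P) := by
  rcases P with _ | ⟨x, y, h⟩
  · show zc (0 : EQbar W) = σ (zc (0 : EQbar W))
    rw [zc_zero, map_zero]
  · rw [Point.algEquiv_smul_def, Point.map_some, zc_some, zc_some]
    show σ x / psi (WQbar W) (σ x) (σ y) = σ (x / psi (WQbar W) x y)
    rw [psi_smul, map_div₀]

lemma wc_smul (σ : GQ) (P : EQbar W) : wc (σ • P) = σ (wc P) := by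
  rcases P with _ | ⟨x, y, h⟩
  · show wc (0 : EQbar W) = σ (wc (0 : EQbar W))
    rw [wc_zero, map_zero]
  · rw [Point.algEquiv_smul_def, Point.map_some, wc_some, wc_some]
    show 1 / psi (WQbar W) (σ x) (σ y) = σ (1 / psi (WQbar W) x y)
    rw [psi_smul, map_div₀, map_one]

end galois

section pair

variable {K : Type*} [Field K] {X : Type*}

lemma lawD_fun (b₂ b₄ b₆ : K) (z₁ w₁ z₂ w₂ : X → K) :
    lawD (fun _ : X => b₂) (fun _ => b₄) (fun _ => b₆) z₁ w₁ z₂ w₂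
      = fun x => lawD b₂ b₄ b₆ (z₁ x) (w₁ x) (z₂ x) (w₂ x) := by
  funext x
  exact map_lawD (Pi.evalRingHom (fun _ : X => K) x) _ _ _ _ _ _ _

lemma lawNz_fun (b₂ b₄ b₆ : K) (z₁ w₁ z₂ w₂ : X → K) :
    lawNz (fun _ : X => b₂) (fun _ => b₄) (fun _ => b₆) z₁ w₁ z₂ w₂
      = fun x => lawNz b₂ b₄ b₆ (z₁ x) (w₁ x) (z₂ x) (w₂ x) := by
  funext x
  exact map_lawNz (Pi.evalRingHom (fun _ : X => K) x) _ _ _ _ _ _ _

lemma lawNw_fun (b₂ b₄ b₆ : K) (z₁ w₁ z₂ w₂ : X → K) :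
    lawNw (fun _ : X => b₂) (fun _ => b₄) (fun _ => b₆) z₁ w₁ z₂ w₂
      = fun x => lawNw b₂ b₄ b₆ (z₁ x) (w₁ x) (z₂ x) (w₂ x) := by
  funext x
  exact map_lawNw (Pi.evalRingHom (fun _ : X => K) x) _ _ _ _ _ _ _

variable (Λ : Subring (X → K)) {b₂ b₄ b₆ : K} {z₁ w₁ z₂ w₂ : X → K}

lemma lawD_mem (hb₂ : (fun _ : X => b₂) ∈ Λ) (hb₄ : (fun _ : X => b₄) ∈ Λ)
    (hb₆ : (fun _ : X => b₆) ∈ Λ) (hz₁ : z₁ ∈ Λ) (hw₁ : w₁ ∈ Λ) (hz₂ : z₂ ∈ Λ) (hw₂ : w₂ ∈ Λ) :
    (fun x => lawD b₂ b₄ b₆ (z₁ x) (w₁ x) (z₂ x) (w₂ x)) ∈ Λ := by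
  rw [← lawD_fun]
  have := (lawD (⟨_, hb₂⟩ : Λ) ⟨_, hb₄⟩ ⟨_, hb₆⟩ ⟨_, hz₁⟩ ⟨_, hw₁⟩ ⟨_, hz₂⟩ ⟨_, hw₂⟩).2
  rwa [← Subring.coe_subtype, map_lawD] at this

lemma lawNz_mem (hb₂ : (fun _ : X => b₂) ∈ Λ) (hb₄ : (fun _ : X => b₄) ∈ Λ)
    (hb₆ : (fun _ : X => b₆) ∈ Λ) (hz₁ : z₁ ∈ Λ) (hw₁ : w₁ ∈ Λ) (hz₂ : z₂ ∈ Λ) (hw₂ : w₂ ∈ Λ) :
    (fun x => lawNz b₂ b₄ b₆ (z₁ x) (w₁ x) (z₂ x) (w₂ x)) ∈ Λ := by
  rw [← lawNz_fun]
  have := (lawNz (⟨_, hb₂⟩ : Λ) ⟨_, hb₄⟩ ⟨_, hb₆⟩ ⟨_, hz₁⟩ ⟨_, hw₁⟩ ⟨_, hz₂⟩ ⟨_, hw₂⟩).2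
  rwa [← Subring.coe_subtype, map_lawNz] at this

lemma lawNw_mem (hb₂ : (fun _ : X => b₂) ∈ Λ) (hb₄ : (fun _ : X => b₄) ∈ Λ)
    (hb₆ : (fun _ : X => b₆) ∈ Λ) (hz₁ : z₁ ∈ Λ) (hw₁ : w₁ ∈ Λ) (hz₂ : z₂ ∈ Λ) (hw₂ : w₂ ∈ Λ) :
    (fun x => lawNw b₂ b₄ b₆ (z₁ x) (w₁ x) (z₂ x) (w₂ x)) ∈ Λ := by
  rw [← lawNw_fun]
  have := (lawNw (⟨_, hb₂⟩ : Λ) ⟨_, hb₄⟩ ⟨_, hb₆⟩ ⟨_, hz₁⟩ ⟨_, hw₁⟩ ⟨_, hz₂⟩ ⟨_, hw₂⟩).2
  rwa [← Subring.coe_subtype, map_lawNw] at this

end pair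

section coeffs

variable (W : WeierstrassCurve ℤ)

/-- The coefficients `b₂, b₄, b₆` of the curve over `Q̄` are integers. -/
lemma b₂_eq : (WQbar W).b₂ = ((W.b₂ : ℤ) : AlgebraicClosure ℚ) := by
  show ((W.map (Int.castRingHom ℚ)).map (algebraMap ℚ (AlgebraicClosure ℚ))).b₂ = _
  rw [WeierstrassCurve.map_b₂, WeierstrassCurve.map_b₂]
  simp

lemma b₄_eq : (WQbar W).b₄ = ((W.b₄ : ℤ) : AlgebraicClosure ℚ) := by
  show ((W.map (Int.castRingHom ℚ)).map (algebraMap ℚ (AlgebraicClosure ℚ))).b₄ = _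
  rw [WeierstrassCurve.map_b₄, WeierstrassCurve.map_b₄]
  simp

lemma b₆_eq : (WQbar W).b₆ = ((W.b₆ : ℤ) : AlgebraicClosure ℚ) := by
  show ((W.map (Int.castRingHom ℚ)).map (algebraMap ℚ (AlgebraicClosure ℚ))).b₆ = _
  rw [WeierstrassCurve.map_b₆, WeierstrassCurve.map_b₆]
  simp

lemma b₂_mem (A : ValuationSubring (AlgebraicClosure ℚ)) : (WQbar W).b₂ ∈ A := by
  rw [b₂_eq]; exact intCast_mem A _

lemma b₄_mem (A : ValuationSubring (AlgebraicClosure ℚ)) : (WQbar W).b₄ ∈ A := by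
  rw [b₄_eq]; exact intCast_mem A _

lemma b₆_mem (A : ValuationSubring (AlgebraicClosure ℚ)) : (WQbar W).b₆ ∈ A := by
  rw [b₆_eq]; exact intCast_mem A _

end coeffs


section bridge

variable {W : WeierstrassCurve ℤ} {p : ℕ} [Fact p.Prime] (D : TateData W p)

/-- The ideals of finite index of `ℤ_p` are the `(p^k)`. -/
lemma exists_pow_of_finite (I : Ideal ℤ_[p]) (hI : Finite (ℤ_[p] ⧸ I)) :
    ∃ k : ℕ, I = Ideal.span {(p : ℤ_[p]) ^ k} := by
  have hI' : I ≠ ⊥ := by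
    rintro rfl
    have : Infinite (ℤ_[p] ⧸ (⊥ : Ideal ℤ_[p])) :=
      (RingEquiv.quotientBot ℤ_[p]).toEquiv.infinite_iff.2 inferInstance
    exact not_finite (ℤ_[p] ⧸ (⊥ : Ideal ℤ_[p]))
  exact PadicInt.ideal_eq_span_pow_p hI'

/-- The residue field of `ℤ_p` is finite. -/
lemma finite_residueField : Finite (IsLocalRing.ResidueField ℤ_[p]) :=
  Finite.of_equiv _ (PadicInt.residueField (p := p)).symm.toEquiv

/-- `p^k V`. -/
noncomputable abbrev pkV (k : ℕ) : Submodule ℤ_[p] D.ρ.V :=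
  Ideal.span {(p : ℤ_[p]) ^ k} • (⊤ : Submodule ℤ_[p] D.ρ.V)

lemma mem_pkV_iff (k : ℕ) (v : D.ρ.V) : v ∈ pkV D k ↔ ∃ w, v = ((p : ℤ_[p]) ^ k) • w := by
  rw [pkV, Submodule.ideal_span_singleton_smul]
  constructor
  · rintro ⟨w, -, rfl⟩
    exact ⟨w, rfl⟩
  · rintro ⟨w, rfl⟩
    exact ⟨w, Submodule.mem_top, rfl⟩

/-- `lev k` on `V / p^k V`. -/
noncomputable def levBar (k : ℕ) : (D.ρ.V ⧸ pkV D k) →+ EQbar W :=
  QuotientAddGroup.lift (pkV D k).toAddSubgroup (D.lev k) (by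
    intro v hv
    obtain ⟨w, rfl⟩ := (mem_pkV_iff D k v).1 hv
    exact D.lev_pow_smul k w)

@[simp] lemma levBar_mk (k : ℕ) (v : D.ρ.V) :
    levBar D k (Submodule.Quotient.mk v) = D.lev k v := rfl

lemma levBar_injective (k : ℕ) : Function.Injective (levBar D k) := by
  rw [injective_iff_map_eq_zero]
  intro x hx
  obtain ⟨v, rfl⟩ := Submodule.Quotient.mk_surjective _ x
  rw [levBar_mk] at hx
  rw [Submodule.Quotient.mk_eq_zero, mem_pkV_iff]
  exact D.lev_ker k v hx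

lemma levBar_tors (k : ℕ) (x : D.ρ.V ⧸ pkV D k) : (p ^ k) • levBar D k x = 0 := by
  obtain ⟨v, rfl⟩ := Submodule.Quotient.mk_surjective _ x
  rw [levBar_mk]
  exact D.lev_tors k v

lemma levBar_equiv (k : ℕ) (σ : GQ) (x : D.ρ.V ⧸ pkV D k) :
    levBar D k (D.ρ.levelAction (Ideal.span {(p : ℤ_[p]) ^ k}) σ x) = σ • levBar D k x := by
  obtain ⟨v, rfl⟩ := Submodule.Quotient.mk_surjective _ x
  rw [levBar_mk, ← D.lev_equiv]
  rfl

end bridge


section main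

open Fermat.Agent.Lib.HopfOrder

variable {W : WeierstrassCurve ℤ} {p : ℕ} [Fact p.Prime] (D : TateData W p)

lemma finite_quot (k : ℕ) (hI : Finite (ℤ_[p] ⧸ Ideal.span {(p : ℤ_[p]) ^ k})) :
    Finite (D.ρ.V ⧸ pkV D k) :=
  Submodule.finite_quotient_smul _ (Module.Finite.fg_top)

/-- The generators: the chart coordinates of `lev k`. -/
noncomputable def gen (k : ℕ) : Fin 2 → (D.ρ.V ⧸ pkV D k) → AlgebraicClosure ℚ :=
  ![fun x => zc (levBar D k x), fun x => wc (levBar D k x)]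

/-- **T5 (p odd) from the valuation input C.** -/
theorem stmt_T5odd_of (hC : Stmt_C) : Stmt_T5odd := by
  classical
  intro W hΔ p _ hp2 D hgood
  have hp : p.Prime := Fact.out
  refine ⟨finite_residueField, fun I hI => ?_⟩
  obtain ⟨k, rfl⟩ := exists_pow_of_finite I hI
  obtain ⟨A, hA⟩ := Fermat.Agent.Lib.FrobExists.exists_liesOverPrime p hp
  have hfin := finite_quot D k hI
  have h2 : (2 : AlgebraicClosure ℚ) ≠ 0 := two_ne_zero
  have hodd : Odd (p ^ k) := (hp.odd_of_ne_two hp2).pow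
  have hno2 : ∀ x : D.ρ.V ⧸ pkV D k, 2 • levBar D k x = 0 → levBar D k x = 0 :=
    fun x h => not_two_of_odd hodd (levBar_tors D k x) h
  have htors : ∀ P Q : EQbar W, (p ^ k) • P = 0 → (p ^ k) • Q = 0 →
      (2 • (P + Q) = 0 → P + Q = 0) ∧ (2 • (P - Q) = 0 → P - Q = 0) := by
    intro P Q hP hQ
    refine ⟨not_two_of_odd hodd ?_, not_two_of_odd hodd ?_⟩
    · rw [nsmul_add, hP, hQ, add_zero]
    · rw [nsmul_sub, hP, hQ, sub_zero]
  have hint : ∀ j x, gen D k j x ∈ A := by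
    intro j x
    obtain ⟨h1, h2, -⟩ := hC W hΔ p hp hp2 hgood A hA k _ _ (levBar_tors D k x)
      (levBar_tors D k x)
    fin_cases j
    · exact h1
    · exact h2
  refine flat_of_generators p hp A hA (fun σ x => D.ρ.levelAction _ σ x) (gen D k)
    (fun σ x y => map_add _ x y) ?_ ?_ hint ?_ ?_
  · -- act_inj
    intro σ x y hxy
    apply levBar_injective D k
    have := congrArg (levBar D k) hxy
    rw [levBar_equiv, levBar_equiv] at this
    exact MulAction.injective σ this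
  · -- equivariant
    intro j σ x
    fin_cases j
    · show zc (levBar D k (D.ρ.levelAction _ σ x)) = σ (zc (levBar D k x))
      rw [levBar_equiv, zc_smul]
    · show wc (levBar D k (D.ρ.levelAction _ σ x)) = σ (wc (levBar D k x))
      rw [levBar_equiv, wc_smul]
  · -- separates
    intro x y hxy
    by_contra hcon
    push Not at hcon
    apply hxy
    apply levBar_injective D k
    exact eq_of_chart_eq h2 (hno2 x) (hno2 y) (hcon 0) (hcon 1)
  · -- comul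
    have hb₂ := const_mem_pairRing A.toSubring (gen D k) (b₂_mem W A)
    have hb₄ := const_mem_pairRing A.toSubring (gen D k) (b₄_mem W A)
    have hb₆ := const_mem_pairRing A.toSubring (gen D k) (b₆_mem W A)
    have hz₁ := fst_mem_pairRing A.toSubring (gen D k) 0
    have hw₁ := fst_mem_pairRing A.toSubring (gen D k) 1
    have hz₂ := snd_mem_pairRing A.toSubring (gen D k) 0
    have hw₂ := snd_mem_pairRing A.toSubring (gen D k) 1
    have hDmem := lawD_mem (pairRing A.toSubring (gen D k)) hb₂ hb₄ hb₆ hz₁ hw₁ hz₂ hw₂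
    have hDu : ∀ q : (D.ρ.V ⧸ pkV D k) × (D.ρ.V ⧸ pkV D k),
        lawD (WQbar W).b₂ (WQbar W).b₄ (WQbar W).b₆ (gen D k 0 q.1) (gen D k 1 q.1)
          (gen D k 0 q.2) (gen D k 1 q.2) ≠ 0 ∧
        (lawD (WQbar W).b₂ (WQbar W).b₄ (WQbar W).b₆ (gen D k 0 q.1) (gen D k 1 q.1)
          (gen D k 0 q.2) (gen D k 1 q.2))⁻¹ ∈ A.toSubring := by
      intro q
      obtain ⟨h3, h4⟩ := htors _ _ (levBar_tors D k q.1) (levBar_tors D k q.2)
      refine ⟨lawD_ne_zero h2 _ _ (hno2 q.1) (hno2 q.2) h3 h4, ?_⟩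
      exact (hC W hΔ p hp hp2 hgood A hA k _ _ (levBar_tors D k q.1)
        (levBar_tors D k q.2)).2.2
    have hlaw : ∀ q : (D.ρ.V ⧸ pkV D k) × (D.ρ.V ⧸ pkV D k), _ :=
      fun q => law_add h2 (levBar D k q.1) (levBar D k q.2) (hno2 q.1) (hno2 q.2)
        (by rw [← map_add]; exact hno2 _)
    intro j
    fin_cases j
    · refine div_mem_pairRing A.toSubring (gen D k) hint _ _ _ hDmem
        (lawNz_mem (pairRing A.toSubring (gen D k)) hb₂ hb₄ hb₆ hz₁ hw₁ hz₂ hw₂) hDu ?_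
      intro q
      show _ * zc (levBar D k (q.1 + q.2)) = _
      rw [map_add]
      exact (hlaw q).1
    · refine div_mem_pairRing A.toSubring (gen D k) hint _ _ _ hDmem
        (lawNw_mem (pairRing A.toSubring (gen D k)) hb₂ hb₄ hb₆ hz₁ hw₁ hz₂ hw₂) hDu ?_
      intro q
      show _ * wc (levBar D k (q.1 + q.2)) = _
      rw [map_add]
      exact (hlaw q).2

end main

/-- `Stmt_Tate` of the S59 wiring from the parts, with T5 only for odd `p`. -/
theorem stmt_Tate_of_odd (h1 : Stmt_T1) (h2 : Stmt_T2) (h3u : Stmt_T3u) (h3c : Stmt_T3c)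
    (h4 : Stmt_T4) (h5 : Stmt_T5odd) (h6 : Stmt_T6) (h7 : Stmt_T7) :
    Fermat.Agent.S59.Stmt_Tate := by
  intro p _ hp2 W hΔ hss
  obtain ⟨D⟩ := h1 W hΔ p
  exact ⟨ℤ_[p], inferInstance, inferInstance, inferInstance, inferInstance, inferInstance,
    inferInstance, D.ρ, h2 W hΔ p D, h3u W hΔ p D, h4 W hΔ hss p D, h5 W hΔ p hp2 D,
    h6 W hΔ hss p hp2 D, h3c W hΔ p D, h7 W hΔ hss p hp2 D⟩

end Fermat.Agent.Tate.T5.H4
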