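/-
Tate T5 (flat at good `p`), package C (helper5): integrality of the chart coordinates
`z = x/ψ`, `w = 1/ψ` (helper46, `H46_LawDefs`) at a valuation subring `A` of good reduction and
residue characteristic `≠ 2`, compatibility with the reduction map (`Lib/EllFinite`, `H4.redOf`),
and the denominator of the complete addition law is a unit of `A`.

General form (any field `F`, `A : ValuationSubring F`, `IsRedOf A V Vk`, `Vk.Δ ≠ 0`, `2 ≠ 0` in the
residue field):
* `chart_red` : if `red P` is not of exact order two, then `zc P, wc P ∈ A` and their residues are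
  `zc (red P), wc (red P)`;
* `val_lawD_eq_one` : `|lawD (zc P) (wc P) (zc Q) (wc Q)| = 1` if none of
  `red P, red Q, red (P + Q), red (P - Q)` has exact order two;
* `_of_odd` versions for points killed by an odd `n`.
-/
import Fermat.Agent.Tate.T5.H46_Law
import Fermat.Agent.Lib.EllFinite.H4_RedOf

set_option autoImplicit false
set_option linter.unusedSectionVars false

namespace Fermat.Agent.Tate.T5.H5

open WeierstrassCurve WeierstrassCurve.Affine IsLocalRing
open Fermat.Agent.Lib.EllFinite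
open Fermat.Agent.Tate.T5

/-- In an additive group, an element killed by `2` and by an odd number is zero. -/
lemma eq_zero_of_two_nsmul_of_odd {G : Type*} [AddGroup G] {n : ℕ} (hn : Odd n) {x : G}
    (hx : n • x = 0) (h2 : 2 • x = 0) : x = 0 := by
  obtain ⟨k, rfl⟩ := hn
  have h1 : (2 * k + 1) • x = k • (2 • x) + x := by
    rw [add_nsmul, one_nsmul, mul_nsmul]
  rw [h1, h2, smul_zero, zero_add] at hx
  exact hx

variable {F : Type*} [Field F] {A : ValuationSubring F}

lemma val_two_eq_one (h2 : (2 : ResidueField A) ≠ 0) : A.valuation (2 : F) = 1 := by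
  have h : residue A (2 : A) ≠ 0 := by
    rw [map_ofNat]
    exact h2
  have := (H4.res_ne_zero_iff (2 : A)).1 h
  have e : ((2 : A) : F) = 2 := rfl
  rwa [e] at this

lemma two_ne_zero_of_res (h2 : (2 : ResidueField A) ≠ 0) : (2 : F) ≠ 0 := by
  intro h
  have := val_two_eq_one (A := A) h2
  rw [h, map_zero] at this
  exact zero_ne_one this

section general

variable {V : Affine F} {Vk : Affine (ResidueField A)}

/-- On the kernel of reduction `|ψ| = |y|`. -/
lemma val_psi_of_lt (hV : H4.IntCoeff A V) (h2 : (2 : ResidueField A) ≠ 0) {x y : F}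
    (h : V.Equation x y) (hx : 1 < A.valuation x) :
    A.valuation (H46.psi V x y) = A.valuation y := by
  have hxy := H4.val_x_lt_val_y hV h hx
  have hy1 := H4.one_lt_val_y hV h hx
  have h2y : A.valuation (2 * y) = A.valuation y := by
    rw [map_mul, val_two_eq_one h2, one_mul]
  have h1 : A.valuation (V.a₁ * x) < A.valuation y :=
    lt_of_le_of_lt (H4.val_int_mul_le hV.a₁) hxy
  have h3 : A.valuation V.a₃ < A.valuation y := lt_of_le_of_lt hV.a₃ hy1
  have h4 : A.valuation (V.a₁ * x + V.a₃) < A.valuation (2 * y) := by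
    rw [h2y]
    exact Valuation.map_add_lt _ h1 h3
  have : H46.psi V x y = 2 * y + (V.a₁ * x + V.a₃) := by
    unfold H46.psi
    ring
  rw [this, Valuation.map_add_eq_of_lt_left _ h4, h2y]

variable [DecidableEq F] [DecidableEq (ResidueField A)]
variable (h : H4.IsRedOf A V Vk) (hΔ : Vk.Δ ≠ 0) (h2 : (2 : ResidueField A) ≠ 0)

include h2 in
/-- **Integrality of the chart and compatibility with reduction.** -/
theorem chart_red (P : V.Point)
    (hP : 2 • H4.redOf h hΔ P = 0 → H4.redOf h hΔ P = 0) :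
    ∃ z w : A, (z : F) = H46.zc P ∧ (w : F) = H46.wc P ∧
      residue A z = H46.zc (H4.redOf h hΔ P) ∧ residue A w = H46.wc (H4.redOf h hΔ P) := by
  rcases P with _ | ⟨x, y, hxy⟩
  · refine ⟨0, 0, rfl, rfl, ?_, ?_⟩
    · have : H4.redOf h hΔ (Point.zero : V.Point) = 0 := map_zero _
      rw [this, map_zero, H46.zc_zero]
    · have : H4.redOf h hΔ (Point.zero : V.Point) = 0 := map_zero _
      rw [this, map_zero, H46.wc_zero]
  · by_cases hx : A.valuation x ≤ 1
    · -- integral point
      have hy : A.valuation y ≤ 1 := h.val_y_le_one hxy hx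
      set a : A := ⟨x, (A.valuation_le_one_iff x).1 hx⟩ with ha
      set b : A := ⟨y, (A.valuation_le_one_iff y).1 hy⟩ with hb
      have hred := H4.redOf_some_of_le h hΔ hxy hx
      rw [hred] at hP ⊢
      have hψk := H46.psi_ne_zero hP
      obtain ⟨WA, hWV, hWk⟩ := id h
      -- the element `ψ` of `A`
      set ψA : A := 2 * b + WA.a₁ * a + WA.a₃ with hψA
      have e1 : (ψA : F) = H46.psi V x y := by
        rw [← hWV]
        simp only [hψA, H46.psi, H4.EF, WeierstrassCurve.map_a₁, WeierstrassCurve.map_a₃, ha, hb]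
        push_cast
        rfl
      have e2 : residue A ψA = H46.psi Vk (residue A a) (residue A b) := by
        rw [← hWk]
        simp only [hψA, H46.psi, H4.Ek, WeierstrassCurve.map_a₁, WeierstrassCurve.map_a₃,
          map_add, map_mul, map_ofNat]
      have hu : IsUnit ψA := H4.isUnit_of_res_ne_zero (by rw [e2]; exact hψk)
      obtain ⟨u, hu'⟩ := hu
      have hu1 : ψA * (↑u⁻¹ : A) = 1 := by rw [← hu']; exact u.mul_inv
      have hψ0 : H46.psi V x y ≠ 0 := by
        rw [← e1]
        intro h0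
        have : ψA = 0 := Subtype.ext h0
        rw [this, zero_mul] at hu1
        exact zero_ne_one hu1
      have e3 : ((↑u⁻¹ : A) : F) = 1 / H46.psi V x y := by
        rw [eq_div_iff hψ0, ← e1, mul_comm]
        exact_mod_cast congrArg (fun t : A => (t : F)) hu1
      have e4 : residue A (↑u⁻¹ : A) = 1 / H46.psi Vk (residue A a) (residue A b) := by
        rw [eq_div_iff hψk, ← e2, ← map_mul, mul_comm, hu1, map_one]
      refine ⟨a * ↑u⁻¹, ↑u⁻¹, ?_, ?_, ?_, ?_⟩
      · rw [H46.zc_some]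
        push_cast
        rw [e3, ha]
        simp only [mul_one_div]
      · rw [H46.wc_some, e3]
      · rw [H46.zc_some, map_mul, e4, mul_one_div]
      · rw [H46.wc_some, e4]
    · -- kernel of reduction
      rw [not_le] at hx
      have hred := H4.redOf_some_of_lt h hΔ hxy hx
      have hvψ := val_psi_of_lt h.intCoeff h2 hxy.1 hx
      have hxy' := H4.val_x_lt_val_y h.intCoeff hxy.1 hx
      have hy1 := H4.one_lt_val_y h.intCoeff hxy.1 hx
      have hy0 : A.valuation y ≠ 0 := (lt_trans zero_lt_one hy1).ne'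
      have hz : A.valuation (H46.zc (Point.some x y hxy)) < 1 := by
        rw [H46.zc_some, map_div₀, hvψ]
        exact (div_lt_one₀ (lt_trans zero_lt_one hy1)).2 hxy'
      have hw : A.valuation (H46.wc (Point.some x y hxy)) < 1 := by
        rw [H46.wc_some, map_div₀, hvψ, map_one]
        exact (div_lt_one₀ (lt_trans zero_lt_one hy1)).2 hy1
      refine ⟨⟨_, (A.valuation_le_one_iff _).1 hz.le⟩, ⟨_, (A.valuation_le_one_iff _).1 hw.le⟩,
        rfl, rfl, ?_, ?_⟩
      · rw [hred, H46.zc_zero, H4.res_eq_zero_iff]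
        exact hz
      · rw [hred, H46.wc_zero, H4.res_eq_zero_iff]
        exact hw

include h2 in
/-- **The denominator of the complete addition law is a unit.** -/
theorem val_lawD_eq_one (P Q : V.Point)
    (hP : 2 • H4.redOf h hΔ P = 0 → H4.redOf h hΔ P = 0)
    (hQ : 2 • H4.redOf h hΔ Q = 0 → H4.redOf h hΔ Q = 0)
    (hS : 2 • H4.redOf h hΔ (P + Q) = 0 → H4.redOf h hΔ (P + Q) = 0)
    (hD : 2 • H4.redOf h hΔ (P - Q) = 0 → H4.redOf h hΔ (P - Q) = 0) :
    A.valuation (H46.lawD V.b₂ V.b₄ V.b₆ (H46.zc P) (H46.wc P) (H46.zc Q) (H46.wc Q)) = 1 := by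
  obtain ⟨z₁, w₁, hz₁, hw₁, rz₁, rw₁⟩ := chart_red h hΔ h2 P hP
  obtain ⟨z₂, w₂, hz₂, hw₂, rz₂, rw₂⟩ := chart_red h hΔ h2 Q hQ
  obtain ⟨WA, hWV, hWk⟩ := id h
  have e1 : H46.lawD V.b₂ V.b₄ V.b₆ (H46.zc P) (H46.wc P) (H46.zc Q) (H46.wc Q) =
      ((H46.lawD WA.b₂ WA.b₄ WA.b₆ z₁ w₁ z₂ w₂ : A) : F) := by
    rw [← hz₁, ← hw₁, ← hz₂, ← hw₂, ← hWV]
    have := H46.map_lawD (algebraMap A F) WA.b₂ WA.b₄ WA.b₆ z₁ w₁ z₂ w₂
    simp only [H4.EF, WeierstrassCurve.map_b₂, WeierstrassCurve.map_b₄, WeierstrassCurve.map_b₆]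
    exact this.symm
  rw [e1, ← H4.res_ne_zero_iff, H46.map_lawD, rz₁, rw₁, rz₂, rw₂]
  have e2 : residue A WA.b₂ = Vk.b₂ := by rw [← hWk, H4.Ek, WeierstrassCurve.map_b₂]
  have e4 : residue A WA.b₄ = Vk.b₄ := by rw [← hWk, H4.Ek, WeierstrassCurve.map_b₄]
  have e6 : residue A WA.b₆ = Vk.b₆ := by rw [← hWk, H4.Ek, WeierstrassCurve.map_b₆]
  rw [e2, e4, e6]
  refine H46.lawD_ne_zero h2 _ _ hP hQ ?_ ?_
  · rw [← map_add]; exact hS
  · rw [← map_sub]; exact hD

section odd

variable {n : ℕ} (hn : Odd n)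

include hn in
lemma red_not_two_of_odd {P : V.Point} (hP : n • P = 0) :
    2 • H4.redOf h hΔ P = 0 → H4.redOf h hΔ P = 0 := by
  intro h2P
  refine eq_zero_of_two_nsmul_of_odd hn ?_ h2P
  rw [← map_nsmul, hP, map_zero]

include h2 hn in
/-- The chart coordinates of a point of odd order are integral. -/
theorem chart_red_of_odd {P : V.Point} (hP : n • P = 0) :
    ∃ z w : A, (z : F) = H46.zc P ∧ (w : F) = H46.wc P ∧
      residue A z = H46.zc (H4.redOf h hΔ P) ∧ residue A w = H46.wc (H4.redOf h hΔ P) :=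
  chart_red h hΔ h2 P (red_not_two_of_odd h hΔ hn hP)

include h hΔ h2 hn in
theorem val_zc_le_one_of_odd {P : V.Point} (hP : n • P = 0) : A.valuation (H46.zc P) ≤ 1 := by
  obtain ⟨z, w, hz, -, -, -⟩ := chart_red_of_odd h hΔ h2 hn hP
  rw [← hz]
  exact A.valuation_le_one z

include h hΔ h2 hn in
theorem val_wc_le_one_of_odd {P : V.Point} (hP : n • P = 0) : A.valuation (H46.wc P) ≤ 1 := by
  obtain ⟨z, w, -, hw, -, -⟩ := chart_red_of_odd h hΔ h2 hn hP
  rw [← hw]
  exact A.valuation_le_one w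

include h hΔ h2 hn in
/-- The denominator of the addition law is a unit on pairs of points of odd order. -/
theorem val_lawD_eq_one_of_odd {P Q : V.Point} (hP : n • P = 0) (hQ : n • Q = 0) :
    A.valuation (H46.lawD V.b₂ V.b₄ V.b₆ (H46.zc P) (H46.wc P) (H46.zc Q) (H46.wc Q)) = 1 :=
  val_lawD_eq_one h hΔ h2 P Q (red_not_two_of_odd h hΔ hn hP) (red_not_two_of_odd h hΔ hn hQ)
    (red_not_two_of_odd h hΔ hn (by rw [smul_add, hP, hQ, add_zero]))
    (red_not_two_of_odd h hΔ hn (by rw [smul_sub, hP, hQ, sub_zero]))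

end odd

end general

end Fermat.Agent.Tate.T5.H5
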