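/-
Tate T5 (flat at good `p`), package C, final form over `Q̄` (helper5).

For an integral Weierstrass model `W`, an odd prime `p` of good reduction, a valuation subring `A`
of `Q̄` over `p` and points `P`, `Q` of `E(Q̄)` killed by an odd `n`:
* `val_zc_le_one`, `val_wc_le_one` : the chart coordinates `zc P = x/ψ`, `wc P = 1/ψ` lie in `A`;
* `val_lawD_eq_one_Q` : the denominator `lawD b₂ b₄ b₆ (zc P) (wc P) (zc Q) (wc Q)` of the
  complete addition law is a unit of `A`;
* `chart_red_Q` : the residues of the chart coordinates are the chart coordinates of the reduction.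
The curve is `(W.map (Int.castRingHom ℚ))⁄Q̄` (= `Fermat.Agent.Tate.EQbar W` on points).
-/
import Fermat.Agent.Tate.T5.H5_Val
import Fermat.Agent.S05.H15_Val
import Fermat.Prelude.Def_FLTPrelim_Ramification

set_option autoImplicit false
set_option linter.unusedSectionVars false

namespace Fermat.Agent.Tate.T5.H5

open WeierstrassCurve WeierstrassCurve.Affine IsLocalRing
open Fermat.Agent.Lib.EllFinite
open Fermat.Agent.Tate.T5

/-- The curve over `Q̄` attached to an integral Weierstrass model (as in `Tate.EQbar`). -/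
noncomputable abbrev ET (W : WeierstrassCurve ℤ) : Affine (AlgebraicClosure ℚ) :=
  (W.map (Int.castRingHom ℚ)).toAffine⁄(AlgebraicClosure ℚ)

variable (W : WeierstrassCurve ℤ)

lemma ET_eq_map : ET W = (W.map (Int.castRingHom (AlgebraicClosure ℚ))).toAffine := by
  show ((W.map (Int.castRingHom ℚ)).map (algebraMap ℚ (AlgebraicClosure ℚ))) =
    W.map (Int.castRingHom (AlgebraicClosure ℚ))
  rw [WeierstrassCurve.map_map]
  congr 1

lemma ET_b₂ : (ET W).b₂ = ((W.b₂ : ℤ) : AlgebraicClosure ℚ) := by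
  rw [ET_eq_map]
  exact WeierstrassCurve.map_b₂ W (Int.castRingHom (AlgebraicClosure ℚ))

lemma ET_b₄ : (ET W).b₄ = ((W.b₄ : ℤ) : AlgebraicClosure ℚ) := by
  rw [ET_eq_map]
  exact WeierstrassCurve.map_b₄ W (Int.castRingHom (AlgebraicClosure ℚ))

lemma ET_b₆ : (ET W).b₆ = ((W.b₆ : ℤ) : AlgebraicClosure ℚ) := by
  rw [ET_eq_map]
  exact WeierstrassCurve.map_b₆ W (Int.castRingHom (AlgebraicClosure ℚ))

/-- The curve over `Q̄` is the generic fibre of the model over `A`. -/
lemma ET_isRedOf (A : ValuationSubring (AlgebraicClosure ℚ)) :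
    H4.IsRedOf A (ET W) (W.map ((residue A).comp (Int.castRingHom A))).toAffine := by
  have h := H4.isRedOf_map (F := AlgebraicClosure ℚ) (A := A) W (Int.castRingHom A)
  have e : (algebraMap A (AlgebraicClosure ℚ)).comp (Int.castRingHom A) =
      Int.castRingHom (AlgebraicClosure ℚ) := RingHom.ext_int _ _
  rw [e] at h
  rw [ET_eq_map]
  exact h

section good

variable {W} {p : ℕ} (hp : p.Prime) (hp2 : p ≠ 2) (hgood : ¬ (p : ℤ) ∣ W.Δ)
  {A : ValuationSubring (AlgebraicClosure ℚ)} (hA : A.LiesOverPrime p)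

include hp hgood hA in
lemma redΔ_ne_zero : (W.map ((residue A).comp (Int.castRingHom A))).toAffine.Δ ≠ 0 := by
  show (W.map ((residue A).comp (Int.castRingHom A))).Δ ≠ 0
  rw [WeierstrassCurve.map_Δ, RingHom.comp_apply, H4.res_ne_zero_iff]
  simpa using Fermat.Agent.S05.H15.valuation_intCast_eq_one_of_not_dvd hp hA hgood

include hp hp2 hA in
lemma res_two_ne_zero : (2 : ResidueField A) ≠ 0 := by
  have h2 : ¬ (p : ℤ) ∣ 2 := by
    intro h
    have h' : p ∣ 2 := by exact_mod_cast h
    exact hp2 ((Nat.prime_dvd_prime_iff_eq hp Nat.prime_two).1 h')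
  have hv : A.valuation ((2 : ℤ) : AlgebraicClosure ℚ) = 1 :=
    Fermat.Agent.S05.H15.valuation_intCast_eq_one_of_not_dvd hp hA h2
  have e : (2 : ResidueField A) = residue A (2 : A) := (map_ofNat _ 2).symm
  rw [e, H4.res_ne_zero_iff]
  have e' : ((2 : A) : AlgebraicClosure ℚ) = ((2 : ℤ) : AlgebraicClosure ℚ) := by
    push_cast
    rfl
  rw [e']
  exact hv

variable {n : ℕ} (hn : Odd n)

include hp hp2 hgood hA hn in
/-- **C1**: `zc P ∈ A` for `P` of odd order. -/
theorem val_zc_le_one {P : (ET W).Point} (hP : n • P = 0) : A.valuation (H46.zc P) ≤ 1 := by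
  classical
  exact val_zc_le_one_of_odd (ET_isRedOf W A) (redΔ_ne_zero hp hgood hA)
    (res_two_ne_zero hp hp2 hA) hn hP

include hp hp2 hgood hA hn in
/-- **C1**: `wc P ∈ A` for `P` of odd order. -/
theorem val_wc_le_one {P : (ET W).Point} (hP : n • P = 0) : A.valuation (H46.wc P) ≤ 1 := by
  classical
  exact val_wc_le_one_of_odd (ET_isRedOf W A) (redΔ_ne_zero hp hgood hA)
    (res_two_ne_zero hp hp2 hA) hn hP

include hp hp2 hgood hA hn in
/-- **C2**: the denominator of the complete addition law is a unit of `A` on pairs of points of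
odd order. -/
theorem val_lawD_eq_one_Q {P Q : (ET W).Point} (hP : n • P = 0) (hQ : n • Q = 0) :
    A.valuation (H46.lawD (ET W).b₂ (ET W).b₄ (ET W).b₆ (H46.zc P) (H46.wc P) (H46.zc Q)
      (H46.wc Q)) = 1 := by
  classical
  exact val_lawD_eq_one_of_odd (ET_isRedOf W A) (redΔ_ne_zero hp hgood hA)
    (res_two_ne_zero hp hp2 hA) hn hP hQ

include hp hp2 hgood hA hn in
/-- **C2**, integer coefficients: the denominator of the complete addition law is a unit of `A`. -/
theorem val_lawD_eq_one_int {P Q : (ET W).Point} (hP : n • P = 0) (hQ : n • Q = 0) :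
    A.valuation (H46.lawD ((W.b₂ : ℤ) : AlgebraicClosure ℚ) ((W.b₄ : ℤ) : AlgebraicClosure ℚ)
      ((W.b₆ : ℤ) : AlgebraicClosure ℚ) (H46.zc P) (H46.wc P) (H46.zc Q) (H46.wc Q)) = 1 := by
  rw [← ET_b₂, ← ET_b₄, ← ET_b₆]
  exact val_lawD_eq_one_Q hp hp2 hgood hA hn hP hQ

end good

end Fermat.Agent.Tate.T5.H5
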