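/-
Tate T5 (flat at good `p`), package C (helper5): proof of `H4.Stmt_C` (interface of helper4's
assembly): on the `p^k`-torsion of `E(Q̄)`, at a valuation subring `A` over a good odd prime `p`,
the chart coordinates `zc`, `wc` lie in `A` and the denominator of the complete addition law has
its inverse in `A`.
-/
import Fermat.Agent.Tate.T5.H5_ValQ
import Fermat.Agent.Tate.T5.H4_AsmDefs

set_option autoImplicit false

namespace Fermat.Agent.Tate.T5.H5

open WeierstrassCurve WeierstrassCurve.Affine
open Fermat.Agent.Tate Fermat.Agent.Tate.T5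

/-- **Package C.** -/
theorem stmt_C : H4.Stmt_C := by
  intro W _ p hp hp2 hgood A hA k P Q hP hQ
  have hn : Odd (p ^ k) := (hp.odd_of_ne_two hp2).pow
  have hP' : (p ^ k) • (P : (ET W).Point) = 0 := hP
  have hQ' : (p ^ k) • (Q : (ET W).Point) = 0 := hQ
  refine ⟨?_, ?_, ?_⟩
  · exact (A.valuation_le_one_iff _).1 (val_zc_le_one hp hp2 hgood hA hn hP')
  · exact (A.valuation_le_one_iff _).1 (val_wc_le_one hp hp2 hgood hA hn hP')
  · have h1 := val_lawD_eq_one_Q hp hp2 hgood hA hn hP' hQ'
    rw [← A.valuation_le_one_iff, map_inv₀]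
    have : A.valuation (H4.denom W P Q) = 1 := h1
    rw [this, inv_one]

end Fermat.Agent.Tate.T5.H5
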