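/-
Stmt_Tate part T5 (flat at a good odd prime): FINAL (helper4).
`stmt_T5odd : Stmt_T5odd` = assembly `stmt_T5odd_of` (helper4; generator criterion by helper18,
complete addition law by helper46) applied to the valuation input `H5.stmt_C` (helper5).
-/
import Fermat.Agent.Tate.T5.H4_Asm
import Fermat.Agent.Tate.T5.H5_StmtC

set_option autoImplicit false

namespace Fermat.Agent.Tate.T5.H4

/-- **T5** for odd `p`: the Tate module of `W` is flat at a good prime `p ≠ 2`. -/
theorem stmt_T5odd : Stmt_T5odd := stmt_T5odd_of Fermat.Agent.Tate.T5.H5.stmt_C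

end Fermat.Agent.Tate.T5.H4
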