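/-
Tate T5 (helper6): the Cayley–Hamilton inverse.

`X` a finite set, `A` a valuation subring of a field `K`, `S` an `A`-subalgebra of the ring of
functions `X → K`.  If `f ∈ S` takes values in the units of `A` then `1 / f ∈ S`.
-/
import Mathlib.RingTheory.Valuation.ValuationSubring
import Mathlib.Algebra.Polynomial.AlgebraMap
import Mathlib.Algebra.Polynomial.Inductions
import Mathlib.Algebra.Polynomial.Eval.Degree

set_option autoImplicit false

open Polynomial

namespace Fermat.Agent.Tate.T5

variable {K : Type*} [Field K] {A : ValuationSubring K} {X : Type*}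

/-- evaluation of `aeval f q` at a point. -/
lemma aeval_fun_apply (f : X → K) (q : Polynomial A) (y : X) :
    (Polynomial.aeval f q) y = Polynomial.aeval (f y) q := by
  have := Polynomial.aeval_algHom_apply (Pi.evalAlgHom A (fun _ : X => K) y) f q
  simpa using this.symm

/-- polynomials in an element of a subalgebra stay in the subalgebra. -/
lemma aeval_mem_subalgebra (S : Subalgebra A (X → K)) {f : X → K} (hf : f ∈ S)
    (q : Polynomial A) : Polynomial.aeval f q ∈ S := by
  have h := Subalgebra.aeval_coe S (⟨f, hf⟩ : S) q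
  simp only at h
  rw [h]
  exact SetLike.coe_mem _

/-- **Cayley–Hamilton inverse**: a function in `S` with values in `Aˣ` is invertible in `S`. -/
theorem inv_mem_of_units [Finite X] (S : Subalgebra A (X → K)) {f : X → K} (hf : f ∈ S)
    (hu : ∀ x, A.valuation (f x) = 1) : (fun x => (f x)⁻¹) ∈ S := by
  classical
  have : Fintype X := Fintype.ofFinite X
  have hfA : ∀ x, f x ∈ A := fun x => (A.valuation_le_one_iff _).1 (hu x).le
  let a : X → A := fun x => ⟨f x, hfA x⟩
  let χ : Polynomial A := ∏ x, (Polynomial.X - Polynomial.C (a x))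
  -- `χ (f y) = 0`
  have hχ : ∀ y, Polynomial.aeval (f y) χ = 0 := by
    intro y
    simp only [χ, map_prod, map_sub, Polynomial.aeval_X, Polynomial.aeval_C]
    apply Finset.prod_eq_zero (Finset.mem_univ y)
    show f y - algebraMap A K (a y) = 0
    exact sub_self _
  -- the constant coefficient
  set c : A := χ.coeff 0 with hc
  have hcval : A.valuation (c : K) = 1 := by
    have h1 : c = ∏ x, (-(a x)) := by
      rw [hc, Polynomial.coeff_zero_eq_eval_zero]
      simp only [χ, Polynomial.eval_prod, Polynomial.eval_sub, Polynomial.eval_X,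
        Polynomial.eval_C, zero_sub]
    rw [h1]
    have h2 : ((∏ x, (-(a x)) : A) : K) = ∏ x, (-(f x)) := by
      push_cast
      rfl
    rw [h2, map_prod]
    apply Finset.prod_eq_one
    intro x _
    rw [Valuation.map_neg, hu x]
  have hc0 : (c : K) ≠ 0 := by
    intro h
    rw [h, map_zero] at hcval
    exact zero_ne_one hcval
  have hcinvA : (c : K)⁻¹ ∈ A := by
    rw [← A.valuation_le_one_iff, map_inv₀, hcval, inv_one]
  let ci : A := ⟨(c : K)⁻¹, hcinvA⟩
  -- `f y * ψ (f y) = - c`
  have hψ : ∀ y, Polynomial.aeval (f y) χ.divX * f y = -(c : K) := by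
    intro y
    have h := hχ y
    rw [← Polynomial.divX_mul_X_add χ] at h
    simp only [map_add, map_mul, Polynomial.aeval_X, Polynomial.aeval_C] at h
    have h' : Polynomial.aeval (f y) χ.divX * f y + (c : K) = 0 := h
    linear_combination h'
  have hfinv : (fun x => (f x)⁻¹) = (-ci) • Polynomial.aeval f χ.divX := by
    funext y
    have hy0 : f y ≠ 0 := by
      intro h
      have := hu y
      rw [h, map_zero] at this
      exact zero_ne_one this
    have h1 := hψ y
    show (f y)⁻¹ = ((-ci : A) : K) * (Polynomial.aeval f χ.divX) y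
    rw [aeval_fun_apply]
    have h2 : ((-ci : A) : K) = -(c : K)⁻¹ := rfl
    rw [h2]
    symm
    rw [← mul_eq_one_iff_eq_inv₀ hy0, mul_assoc, h1]
    field_simp
  rw [hfinv]
  exact S.smul_mem (aeval_mem_subalgebra S hf _) _

end Fermat.Agent.Tate.T5
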