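/-
Tate T5 (flat at a good prime `p`), owner-planner helper6.  Plan: NOTES/plan/Tate_T5.md.

Interfaces of the ABSTRACT layer (pure algebra, no elliptic curves):

`LGData p A act M1 B0 z G` ("local-global data") for a finite abelian group `M` with an action
`act` of `G_ℚ`, a valuation subring `A` of `ℚ̄` over `p`, a subgroup `M1` ("kernel of reduction"),
an `A`-algebra `B0` of functions on `M1` ("integral power series in the parameter `z`") and a set
`G` of global (= Galois-equivariant) functions on `M` which are locally in `B0`.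

Packages (each is ONE `Stmt_*`; prove `theorem x : Stmt_*` in `Tate/T5/H<seat>_<Name>.lean`):
* `Stmt_AbsGen`  : the local order `localOrder A M1 B0` is generated over `A` by `G`;
* `Stmt_AbsLoc`  : the local order is `A`-valued, separates points, is stable under `f ↦ f(x+y)`;
* `Stmt_AbsHopf` : an `A`-valued, point-separating, comultiplication-stable `A`-algebra generated
                   by equivariant functions descends to a Hopf order over `ℤ_(p)`.
`absMain_of` wires them:  `LGData → ∃ H, IsHopfOrder act ev`.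
-/
import Fermat.Agent.Lib.HopfOrder

set_option autoImplicit false

namespace Fermat.Agent.Tate.T5

open Fermat.Agent.R.H54 (GalQ)
open Fermat.Agent.Lib.HopfOrder (IsHopfOrder)
open GaloisRep (ratLocalizedAt)

/-- `ℚ̄`. -/
abbrev Qb : Type := AlgebraicClosure ℚ

section defs

variable {M : Type} [AddCommGroup M]

/-- The translate of `f` by `P`, restricted to `M1`. -/
def trans (M1 : AddSubgroup M) (f : M → Qb) (P : M) : M1 → Qb := fun t => f (P + (t : M))

/-- The local order: functions on `M` all of whose translates, restricted to `M1`, lie in `B0`. -/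
def localOrder (A : ValuationSubring Qb) (M1 : AddSubgroup M) (B0 : Subalgebra A (M1 → Qb)) :
    Subalgebra A (M → Qb) where
  carrier := {f | ∀ P, trans M1 f P ∈ B0}
  mul_mem' := fun {f g} hf hg P => by
    have : trans M1 (f * g) P = trans M1 f P * trans M1 g P := rfl
    rw [this]; exact B0.mul_mem (hf P) (hg P)
  add_mem' := fun {f g} hf hg P => by
    have : trans M1 (f + g) P = trans M1 f P + trans M1 g P := rfl
    rw [this]; exact B0.add_mem (hf P) (hg P)
  algebraMap_mem' := fun a P => by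
    have : trans M1 (algebraMap A (M → Qb) a) P = algebraMap A (M1 → Qb) a := rfl
    rw [this]; exact B0.algebraMap_mem a

lemma mem_localOrder {A : ValuationSubring Qb} {M1 : AddSubgroup M}
    {B0 : Subalgebra A (M1 → Qb)} {f : M → Qb} :
    f ∈ localOrder A M1 B0 ↔ ∀ P, trans M1 f P ∈ B0 := Iff.rfl

/-- Local-global data. -/
structure LGData (p : ℕ) (A : ValuationSubring Qb) (act : GalQ → M → M) (M1 : AddSubgroup M)
    (B0 : Subalgebra A (M1 → Qb)) (z : M1 → Qb) (G : Set (M → Qb)) : Prop where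
  /-- `A` lies over `p` -/
  lies : A.LiesOverPrime p
  /-- the action is additive -/
  act_add : ∀ σ x y, act σ (x + y) = act σ x + act σ y
  /-- `B0` consists of `A`-valued functions -/
  B0_val : ∀ φ ∈ B0, ∀ t, φ t ∈ A
  /-- `B0` is a finitely generated `A`-module -/
  B0_fg : (Subalgebra.toSubmodule B0).FG
  /-- the parameter -/
  z_mem : z ∈ B0
  z_val : ∀ t, A.valuation (z t) < 1
  /-- `B0` separates the points of `M1` -/
  B0_sep : ∀ s t : M1, s ≠ t → ∃ φ ∈ B0, φ s ≠ φ t
  /-- the augmentation ideal of `B0` is generated by `z` -/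
  B0_aug : ∀ φ ∈ B0, ∃ β ∈ B0, ∀ t, φ t = φ 0 + z t * β t
  /-- the formal group law: `B0` is stable under comultiplication -/
  B0_comul : ∀ φ ∈ B0, ∃ (n : ℕ) (a b : Fin n → (M1 → Qb)),
    (∀ i, a i ∈ B0) ∧ (∀ i, b i ∈ B0) ∧ ∀ s t : M1, φ (s + t) = ∑ i, a i s * b i t
  /-- the global functions are equivariant -/
  G_equiv : ∀ g ∈ G, ∀ (σ : GalQ) (x : M), g (act σ x) = σ (g x)
  /-- the global functions are locally in `B0` -/
  G_loc : ∀ g ∈ G, ∀ P, trans M1 g P ∈ B0
  /-- the global functions separate the cosets of `M1` modulo the maximal ideal -/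
  G_sep : ∀ P Q : M, P - Q ∉ M1 → ∃ g ∈ G, A.valuation (g P - g Q) = 1
  /-- in every coset of `M1` there is a point `P'` at which some quotient `g₁ / g₂` of global
  functions is a local parameter: `g₁ / g₂ = c₀ + z (c + z β)` with `c` a unit -/
  G_gen : ∀ P : M, ∃ P' : M, P' - P ∈ M1 ∧
    ∃ g₁ ∈ Algebra.adjoin A G, ∃ g₂ ∈ Algebra.adjoin A G, ∃ (c₀ c : Qb),
    ∃ β ∈ B0, A.valuation (g₂ P') = 1 ∧ A.valuation c = 1 ∧
      ∀ t : M1, g₁ (P' + t) = g₂ (P' + t) * (c₀ + z t * (c + z t * β t))

end defs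

/-- Comultiplication-stability of an `A`-algebra `S` of functions on `M`. -/
def ComulStable {M : Type} [AddCommGroup M] {A : ValuationSubring Qb}
    (S : Subalgebra A (M → Qb)) : Prop :=
  ∀ f ∈ S, ∃ (n : ℕ) (a b : Fin n → (M → Qb)),
    (∀ i, a i ∈ S) ∧ (∀ i, b i ∈ S) ∧ ∀ x y : M, f (x + y) = ∑ i, a i x * b i y

/-- **ABS-GEN**: the local order is generated over `A` by the global functions. -/
def Stmt_AbsGen : Prop :=
  ∀ (p : ℕ) [Fact p.Prime] (A : ValuationSubring Qb) (M : Type) [AddCommGroup M] [Finite M]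
    (act : GalQ → M → M) (M1 : AddSubgroup M) (B0 : Subalgebra A (M1 → Qb)) (z : M1 → Qb)
    (G : Set (M → Qb)), LGData p A act M1 B0 z G →
      localOrder A M1 B0 ≤ Algebra.adjoin A G

/-- **ABS-LOC**: the local order is `A`-valued, separates the points and is stable under
comultiplication. -/
def Stmt_AbsLoc : Prop :=
  ∀ (p : ℕ) [Fact p.Prime] (A : ValuationSubring Qb) (M : Type) [AddCommGroup M] [Finite M]
    (act : GalQ → M → M) (M1 : AddSubgroup M) (B0 : Subalgebra A (M1 → Qb)) (z : M1 → Qb)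
    (G : Set (M → Qb)), LGData p A act M1 B0 z G →
      (∀ f ∈ localOrder A M1 B0, ∀ x, f x ∈ A) ∧
      (∀ x y : M, x ≠ y → ∃ f ∈ localOrder A M1 B0, f x ≠ f y) ∧
      ComulStable (localOrder A M1 B0)

/-- **ABS-HOPF**: descent to `ℤ_(p)`. -/
def Stmt_AbsHopf : Prop :=
  ∀ (p : ℕ) [Fact p.Prime] (A : ValuationSubring Qb), A.LiesOverPrime p →
    ∀ (M : Type) [AddCommGroup M] [Finite M] (act : GalQ → M → M) (G : Set (M → Qb)),
      (∀ σ x y, act σ (x + y) = act σ x + act σ y) →
      (∀ g ∈ G, ∀ (σ : GalQ) (x : M), g (act σ x) = σ (g x)) →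
      (∀ f ∈ Algebra.adjoin A G, ∀ x, f x ∈ A) →
      (∀ x y : M, x ≠ y → ∃ f ∈ Algebra.adjoin A G, f x ≠ f y) →
      ComulStable (Algebra.adjoin A G) →
      ∃ (H : Type) (_ : CommRing H) (_ : Algebra (ratLocalizedAt p) H)
        (ev : M → (H →ₐ[ratLocalizedAt p] Qb)), IsHopfOrder act ev

/-- The abstract main theorem from the three packages. -/
theorem absMain_of (hgen : Stmt_AbsGen) (hloc : Stmt_AbsLoc) (hhopf : Stmt_AbsHopf)
    (p : ℕ) [Fact p.Prime] (A : ValuationSubring Qb) (M : Type) [AddCommGroup M] [Finite M]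
    (act : GalQ → M → M) (M1 : AddSubgroup M) (B0 : Subalgebra A (M1 → Qb)) (z : M1 → Qb)
    (G : Set (M → Qb)) (h : LGData p A act M1 B0 z G) :
    ∃ (H : Type) (_ : CommRing H) (_ : Algebra (ratLocalizedAt p) H)
      (ev : M → (H →ₐ[ratLocalizedAt p] Qb)), IsHopfOrder act ev := by
  have hle : Algebra.adjoin A G ≤ localOrder A M1 B0 :=
    Algebra.adjoin_le fun g hg => h.G_loc g hg
  have heq : Algebra.adjoin A G = localOrder A M1 B0 :=
    le_antisymm hle (hgen p A M act M1 B0 z G h)
  obtain ⟨h1, h2, h3⟩ := hloc p A M act M1 B0 z G h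
  refine hhopf p A h.lies M act G h.act_add h.G_equiv ?_ ?_ ?_
  · rw [heq]; exact h1
  · rw [heq]; exact h2
  · rw [heq]; exact h3

end Fermat.Agent.Tate.T5
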