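/-
Tate T5 (flat at good `p`), package B, part 1 (helper5): the addition law of bidegree `(2,2)`
attached to the line `Y = 0` (Bosma–Lenstra), in the chart `z = x / Y`, `w = 1 / Y` at infinity of
`Y² = x³ + A₂ x² + A₄ x + A₆`.

  `z(P+Q) = Nzp / Dp`, `w(P+Q) = Nwp / Dp`,

and `Dp ≠ 0` as soon as `P`, `Q`, `P+Q`, `P-Q` are not points of order two.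
Pure polynomial algebra; all identities were found by computer algebra and are checked by `ring`.
-/
import Mathlib.Tactic.Ring
import Mathlib.Tactic.LinearCombination
import Mathlib.Tactic.FieldSimp
import Mathlib.Algebra.Field.Basic

set_option autoImplicit false

namespace Fermat.Agent.Tate.T5.H5

section Defs

variable {R : Type*} [CommRing R] (A₂ A₄ A₆ : R)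

/-- Denominator of the addition law in chart coordinates. -/
def Dp (z₁ w₁ z₂ w₂ : R) : R :=
  4 * A₂^2 * A₆ * z₁ * w₁ * w₂^2 + 4 * A₂^2 * A₆ * w₁^2 * z₂ * w₂ - A₂^2 * z₁^2 * z₂^2 - A₂ * A₄^2 * z₁ * w₁ * w₂^2 - A₂ * A₄^2 * w₁^2 * z₂ * w₂ + 4 * A₂ * A₄ * A₆ * w₁^2 * w₂^2 - A₂ * A₄ * z₁^2 * z₂ * w₂ - A₂ * A₄ * z₁ * w₁ * z₂^2 + 3 * A₂ * A₆ * z₁^2 * w₂^2 + 12 * A₂ * A₆ * z₁ * w₁ * z₂ * w₂ + 3 * A₂ * A₆ * w₁^2 * z₂^2 - A₄^3 * w₁^2 * w₂^2 - A₄^2 * z₁^2 * w₂^2 - 4 * A₄^2 * z₁ * w₁ * z₂ * w₂ - A₄^2 * w₁^2 * z₂^2 - 3 * A₄ * A₆ * z₁ * w₁ * w₂^2 - 3 * A₄ * A₆ * w₁^2 * z₂ * w₂ + 3 * A₄ * z₁^2 * z₂^2 - 9 * A₆^2 * w₁^2 * w₂^2 + 9 * A₆ * z₁^2 * z₂ * w₂ + 9 * A₆ * z₁ * w₁ * z₂^2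 + 1

/-- Numerator of `z(P+Q)`. -/
def Nzp (z₁ w₁ z₂ w₂ : R) : R :=
  -4 * A₂ * A₆ * w₁^2 * w₂ - 4 * A₂ * A₆ * w₁ * w₂^2 - A₂ * z₁^2 * z₂ - A₂ * z₁ * z₂^2 + A₄^2 * w₁^2 * w₂ + A₄^2 * w₁ * w₂^2 - A₄ * z₁^2 * w₂ - 2 * A₄ * z₁ * w₁ * z₂ - 2 * A₄ * z₁ * z₂ * w₂ - A₄ * w₁ * z₂^2 - 6 * A₆ * z₁ * w₁ * w₂ - 3 * A₆ * z₁ * w₂^2 - 3 * A₆ * w₁^2 * z₂ - 6 * A₆ * w₁ * z₂ * w₂ + z₁ + z₂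

/-- Numerator of `w(P+Q)`. -/
def Nwp (z₁ w₁ z₂ w₂ : R) : R :=
  A₂ * z₁^2 * w₂ + 2 * A₂ * z₁ * w₁ * z₂ + 2 * A₂ * z₁ * z₂ * w₂ + A₂ * w₁ * z₂^2 + 2 * A₄ * z₁ * w₁ * w₂ + A₄ * z₁ * w₂^2 + A₄ * w₁^2 * z₂ + 2 * A₄ * w₁ * z₂ * w₂ + 3 * A₆ * w₁^2 * w₂ + 3 * A₆ * w₁ * w₂^2 + 3 * z₁^2 * z₂ + 3 * z₁ * z₂^2 + w₁ + w₂

/-- `Y₁² Y₂² Dp` in affine coordinates. -/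
def Dh (x₁ Y₁ x₂ Y₂ : R) : R :=
  4 * A₂^2 * A₆ * x₁ + 4 * A₂^2 * A₆ * x₂ - A₂^2 * x₁^2 * x₂^2 - A₂ * A₄^2 * x₁ - A₂ * A₄^2 * x₂ + 4 * A₂ * A₄ * A₆ - A₂ * A₄ * x₁^2 * x₂ - A₂ * A₄ * x₁ * x₂^2 + 3 * A₂ * A₆ * x₁^2 + 12 * A₂ * A₆ * x₁ * x₂ + 3 * A₂ * A₆ * x₂^2 - A₄^3 - A₄^2 * x₁^2 - 4 * A₄^2 * x₁ * x₂ - A₄^2 * x₂^2 - 3 * A₄ * A₆ * x₁ - 3 * A₄ * A₆ * x₂ + 3 * A₄ * x₁^2 * x₂^2 - 9 * A₆^2 + 9 * A₆ * x₁^2 * x₂ + 9 * A₆ * x₁ * x₂^2 + Y₁^2 * Y₂^2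

/-- `Y₁² Y₂² Nzp` in affine coordinates. -/
def Nzh (x₁ Y₁ x₂ Y₂ : R) : R :=
  -4 * A₂ * A₆ * Y₁ - 4 * A₂ * A₆ * Y₂ - A₂ * x₁^2 * x₂ * Y₂ - A₂ * x₁ * Y₁ * x₂^2 + A₄^2 * Y₁ + A₄^2 * Y₂ - A₄ * x₁^2 * Y₂ - 2 * A₄ * x₁ * Y₁ * x₂ - 2 * A₄ * x₁ * x₂ * Y₂ - A₄ * Y₁ * x₂^2 - 3 * A₆ * x₁ * Y₁ - 6 * A₆ * x₁ * Y₂ - 6 * A₆ * Y₁ * x₂ - 3 * A₆ * x₂ * Y₂ + x₁ * Y₁ * Y₂^2 + Y₁^2 * x₂ * Y₂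

/-- `Y₁² Y₂² Nwp` in affine coordinates. -/
def Nwh (x₁ Y₁ x₂ Y₂ : R) : R :=
  A₂ * x₁^2 * Y₂ + 2 * A₂ * x₁ * Y₁ * x₂ + 2 * A₂ * x₁ * x₂ * Y₂ + A₂ * Y₁ * x₂^2 + A₄ * x₁ * Y₁ + 2 * A₄ * x₁ * Y₂ + 2 * A₄ * Y₁ * x₂ + A₄ * x₂ * Y₂ + 3 * A₆ * Y₁ + 3 * A₆ * Y₂ + 3 * x₁^2 * x₂ * Y₂ + 3 * x₁ * Y₁ * x₂^2 + Y₁^2 * Y₂ + Y₁ * Y₂^2

variable {A₂ A₄ A₆}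

@[simp] lemma Dp_zero_left (z w : R) : Dp A₂ A₄ A₆ 0 0 z w = 1 := by simp [Dp]
@[simp] lemma Dp_zero_right (z w : R) : Dp A₂ A₄ A₆ z w 0 0 = 1 := by simp [Dp]
@[simp] lemma Nzp_zero_left (z w : R) : Nzp A₂ A₄ A₆ 0 0 z w = z := by simp [Nzp]
@[simp] lemma Nzp_zero_right (z w : R) : Nzp A₂ A₄ A₆ z w 0 0 = z := by simp [Nzp]
@[simp] lemma Nwp_zero_left (z w : R) : Nwp A₂ A₄ A₆ 0 0 z w = w := by simp [Nwp]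
@[simp] lemma Nwp_zero_right (z w : R) : Nwp A₂ A₄ A₆ z w 0 0 = w := by simp [Nwp]

lemma Dp_neg_right (z₁ w₁ z₂ w₂ : R) :
    Dp A₂ A₄ A₆ z₁ w₁ (-z₂) (-w₂) = Dp A₂ A₄ A₆ z₁ w₁ z₂ w₂ := by
  simp only [Dp]; ring

lemma Dp_comm (z₁ w₁ z₂ w₂ : R) :
    Dp A₂ A₄ A₆ z₂ w₂ z₁ w₁ = Dp A₂ A₄ A₆ z₁ w₁ z₂ w₂ := by
  simp only [Dp]; ring

lemma Nzp_neg_self (z w : R) : Nzp A₂ A₄ A₆ z w (-z) (-w) = 0 := by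
  simp only [Nzp]; ring

lemma Nwp_neg_self (z w : R) : Nwp A₂ A₄ A₆ z w (-z) (-w) = 0 := by
  simp only [Nwp]; ring

/-! ### Polynomial identities on the curve -/

section Ident

variable {x₁ Y₁ x₂ Y₂ : R}

lemma ident_G1 (h₁ : Y₁ ^ 2 = x₁ ^ 3 + A₂ * x₁ ^ 2 + A₄ * x₁ + A₆)
    (h₂ : Y₂ ^ 2 = x₂ ^ 3 + A₂ * x₂ ^ 2 + A₄ * x₂ + A₆) :
    Dh A₂ A₄ A₆ x₁ Y₁ x₂ Y₂ * (x₁ - x₂) ^ 3 = Nwh A₂ A₄ A₆ x₁ Y₁ x₂ Y₂ * (-(Y₁ - Y₂) * (((Y₁ - Y₂)^2 - (A₂ + x₁ + x₂) * (x₁ - x₂)^2) - x₁ * (x₁ - x₂)^2) - Y₁ * (x₁ - x₂)^3) := by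
  simp only [Dh, Nwh]
  linear_combination (4 * A₂^2 * x₁^2 * x₂^2 - A₂^2 * x₂^4 + 4 * A₂ * A₄ * x₁^2 * x₂ + 4 * A₂ * A₄ * x₁ * x₂^2 - 2 * A₂ * A₄ * x₂^3 + 8 * A₂ * A₆ * x₁ * x₂ - 2 * A₂ * A₆ * x₂^2 + A₂ * x₁^2 * Y₁ * Y₂ + 12 * A₂ * x₁^2 * x₂^3 - 5 * A₂ * x₁^2 * Y₂^2 + 2 * A₂ * x₁ * Y₁^2 * x₂ - 2 * A₂ * x₁ * Y₁ * x₂ * Y₂ - 4 * A₂ * x₁ * x₂^4 + A₂ * Y₁^2 * x₂^2 - 4 * A₂ * Y₁ * x₂^2 * Y₂ - 2 * A₂ * x₂^5 + 3 * A₂ * x₂^2 * Y₂^2 + A₄^2 * x₁^2 + 2 * A₄^2 * x₁ * x₂ + 4 * A₄ * A₆ * x₁ + 2 * A₄ * A₆ * x₂ + 6 * A₄ * x₁^2 * x₂^2 + A₄ * x₁ * Y₁^2 + 4 * A₄ * x₁ * x₂^3 - 5 * A₄ * x₁ * Y₂^2 + 2 * A₄ * Y₁^2 * x₂ - 5 * A₄ * Y₁ * x₂ * Y₂ - 4 * A₄ * x₂^4 + 3 * A₄ * x₂ * Y₂^2 + 3 *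 A₆^2 + 12 * A₆ * x₁ * x₂^2 + 3 * A₆ * Y₁^2 - 5 * A₆ * Y₁ * Y₂ - 6 * A₆ * x₂^3 - 2 * A₆ * Y₂^2 + 3 * x₁^2 * Y₁ * x₂ * Y₂ + 9 * x₁^2 * x₂^4 - 15 * x₁^2 * x₂ * Y₂^2 + 3 * x₁ * Y₁^2 * x₂^2 - 6 * x₁ * Y₁ * x₂^2 * Y₂ - 6 * x₁ * x₂^5 + 15 * x₁ * x₂^2 * Y₂^2 + Y₁^3 * Y₂ - 2 * Y₁^2 * Y₂^2 - 2 * Y₁ * x₂^3 * Y₂ - 2 * x₂^3 * Y₂^2 + 2 * Y₂^4) * h₁ +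
    (-4 * A₂^2 * x₁^4 + A₂^2 * x₁^2 * x₂^2 - 8 * A₂ * A₄ * x₁^3 + A₂ * A₄ * x₁^2 * x₂ + A₂ * A₄ * x₁ * x₂^2 - 3 * A₂ * A₆ * x₁^2 - 8 * A₂ * A₆ * x₁ * x₂ + 5 * A₂ * A₆ * x₂^2 - 3 * A₂ * x₁^5 - 11 * A₂ * x₁^4 * x₂ + 8 * A₂ * x₁^3 * x₂^2 + 4 * A₂ * x₁^2 * Y₁ * Y₂ + A₂ * x₁^2 * Y₂^2 + 2 * A₂ * x₁ * Y₁ * x₂ * Y₂ - 2 * A₂ * x₁ * x₂ * Y₂^2 - A₂ * Y₁ * x₂^2 * Y₂ - 5 * A₄^2 * x₁^2 + 3 * A₄^2 * x₁ * x₂ - A₄^2 * x₂^2 - 7 * A₄ * A₆ * x₁ + A₄ * A₆ * x₂ - A₄ * x₁^4 - 14 * A₄ * x₁^3 * x₂ + 9 * A₄ * x₁^2 * x₂^2 + 5 * A₄ * x₁ * Y₁ * Y₂ - A₄ * x₂ * Y₂^2 - 3 * A₆^2 + 6 * A₆ * x₁^3 - 27 * A₆ * x₁^2 * x₂ + 15 * A₆ * x₁ * x₂^2 + 5 * A₆ * Y₁ * Y₂ - A₆ * Y₂^2 - 9 * x₁^5 * x₂ + 6 * x₁^4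 * x₂^2 + 2 * x₁^3 * Y₁ * Y₂ + 2 * x₁^3 * Y₂^2 + 6 * x₁^2 * Y₁ * x₂ * Y₂ - 3 * x₁^2 * x₂ * Y₂^2 - 3 * x₁ * Y₁ * x₂^2 * Y₂ - Y₁ * Y₂^3) * h₂

lemma ident_G2 (h₁ : Y₁ ^ 2 = x₁ ^ 3 + A₂ * x₁ ^ 2 + A₄ * x₁ + A₆)
    (h₂ : Y₂ ^ 2 = x₂ ^ 3 + A₂ * x₂ ^ 2 + A₄ * x₂ + A₆) :
    Dh A₂ A₄ A₆ x₁ Y₁ x₂ Y₂ * ((Y₁ - Y₂)^2 - (A₂ + x₁ + x₂) * (x₁ - x₂)^2) * (x₁ - x₂) = Nzh A₂ A₄ A₆ x₁ Y₁ x₂ Y₂ * (-(Y₁ - Y₂) * (((Y₁ - Y₂)^2 - (A₂ + x₁ + x₂) * (x₁ - x₂)^2) - x₁ * (x₁ - x₂)^2) - Y₁ * (x₁ - x₂)^3) := by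
  simp only [Dh, Nzh]
  linear_combination (4 * A₂^2 * A₆ * x₁^2 - 8 * A₂^2 * A₆ * x₁ * x₂ - A₂^2 * x₁^3 * x₂^2 - A₂^2 * x₁^2 * x₂^3 + A₂^2 * x₁ * x₂^4 - A₂ * A₄^2 * x₁^2 + 2 * A₂ * A₄^2 * x₁ * x₂ - 4 * A₂ * A₄ * A₆ * x₂ - A₂ * A₄ * x₁^3 * x₂ - 5 * A₂ * A₄ * x₁^2 * x₂^2 + A₂ * A₄ * x₁ * x₂^3 + A₂ * A₄ * x₂^4 - 4 * A₂ * A₆^2 + 3 * A₂ * A₆ * x₁^3 + 3 * A₂ * A₆ * x₁^2 * x₂ - 31 * A₂ * A₆ * x₁ * x₂^2 - 4 * A₂ * A₆ * Y₁^2 + 8 * A₂ * A₆ * Y₁ * Y₂ + 11 * A₂ * A₆ * x₂^3 - A₂ * x₁^2 * Y₁ * x₂ * Y₂ - 3 * A₂ * x₁^2 * x₂^4 + 5 * A₂ * x₁^2 * x₂ * Y₂^2 - A₂ * x₁ * Y₁^2 * x₂^2 + 5 * A₂ * x₁ * Y₁ * x₂^2 * Y₂ + 2 * A₂ * x₁ * x₂^5 - 9 * A₂ * x₁ * x₂^2 * Y₂^2 - A₂ * Y₁ * x₂^3 * Y₂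 + 2 * A₂ * x₂^3 * Y₂^2 + A₄^3 * x₂ + A₄^2 * A₆ - A₄^2 * x₁^3 - 5 * A₄^2 * x₁^2 * x₂ + 5 * A₄^2 * x₁ * x₂^2 + A₄^2 * Y₁^2 - 2 * A₄^2 * Y₁ * Y₂ - A₄^2 * x₂^3 - 6 * A₄ * A₆ * x₁^2 - 8 * A₄ * A₆ * x₁ * x₂ + 2 * A₄ * A₆ * x₂^2 + 3 * A₄ * x₁^3 * x₂^2 - A₄ * x₁^2 * Y₁ * Y₂ - 9 * A₄ * x₁^2 * x₂^3 + 5 * A₄ * x₁^2 * Y₂^2 - 2 * A₄ * x₁ * Y₁^2 * x₂ + 5 * A₄ * x₁ * Y₁ * x₂ * Y₂ + A₄ * x₁ * x₂^4 - 4 * A₄ * x₁ * x₂ * Y₂^2 - A₄ * Y₁^2 * x₂^2 + 3 * A₄ * Y₁ * x₂^2 * Y₂ + 2 * A₄ * x₂^5 - 3 * A₄ * x₂^2 * Y₂^2 - 12 * A₆^2 * x₁ + 3 * A₆^2 * x₂ + 9 * A₆ * x₁^3 * x₂ - 9 * A₆ * x₁^2 * x₂^2 - 3 * A₆ * x₁ * Y₁^2 + 3 * A₆ * x₁ * Y₁ * Y₂ - 21 * A₆ * x₁ * x₂^3 + 11 * A₆ * x₁ * Y₂^2 - 6 * A₆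 * Y₁^2 * x₂ + 16 * A₆ * Y₁ * x₂ * Y₂ + 12 * A₆ * x₂^4 - 13 * A₆ * x₂ * Y₂^2 + 2 * x₁ * Y₁^2 * Y₂^2 + 3 * x₁ * Y₁ * x₂^3 * Y₂ - 5 * x₁ * Y₁ * Y₂^3 - 4 * x₁ * x₂^3 * Y₂^2 + 4 * x₁ * Y₂^4 + Y₁^3 * x₂ * Y₂ - 4 * Y₁^2 * x₂ * Y₂^2 - 2 * Y₁ * x₂^4 * Y₂ + 5 * Y₁ * x₂ * Y₂^3 + 2 * x₂^4 * Y₂^2 - 2 * x₂ * Y₂^4) * h₁ +
    (8 * A₂^2 * A₆ * x₁ * x₂ - 4 * A₂^2 * A₆ * x₂^2 + 4 * A₂^2 * x₁^4 * x₂ - 4 * A₂^2 * x₁^3 * x₂^2 + A₂^2 * x₁^2 * x₂^3 - 2 * A₂ * A₄^2 * x₁ * x₂ + A₂ * A₄^2 * x₂^2 + 4 * A₂ * A₄ * A₆ * x₁ + 4 * A₂ * A₄ * x₁^4 + 4 * A₂ * A₄ * x₁^3 * x₂ - 5 * A₂ * A₄ * x₁^2 * x₂^2 + A₂ * A₄ * x₁ * x₂^3 + 4 * A₂ * A₆^2 + 4 * A₂ * A₆ * x₁^3 + 21 * A₂ * A₆ * x₁^2 * x₂ - 8 * A₂ *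 A₆ * x₁ * x₂^2 - 8 * A₂ * A₆ * Y₁ * Y₂ - 3 * A₂ * A₆ * x₂^3 + 4 * A₂ * A₆ * Y₂^2 + 3 * A₂ * x₁^5 * x₂ - 2 * A₂ * x₁^4 * x₂^2 - 4 * A₂ * x₁^3 * Y₁ * Y₂ + 4 * A₂ * x₁^3 * Y₂^2 - A₂ * x₁^2 * x₂ * Y₂^2 + A₂ * x₁ * Y₁ * x₂^2 * Y₂ - A₄^3 * x₁ - A₄^2 * A₆ + 6 * A₄^2 * x₁^3 - 5 * A₄^2 * x₁^2 * x₂ + 2 * A₄^2 * Y₁ * Y₂ + A₄^2 * x₂^3 - A₄^2 * Y₂^2 + 18 * A₄ * A₆ * x₁^2 - 7 * A₄ * A₆ * x₁ * x₂ + A₄ * A₆ * x₂^2 + 3 * A₄ * x₁^5 - A₄ * x₁^4 * x₂ + 4 * A₄ * x₁^3 * x₂^2 - 8 * A₄ * x₁^2 * Y₁ * Y₂ - 3 * A₄ * x₁^2 * x₂^3 + 5 * A₄ * x₁^2 * Y₂^2 + A₄ * Y₁ * x₂^2 * Y₂ + 12 * A₆^2 * x₁ - 3 * A₆^2 * x₂ + 3 * A₆ * x₁^4 + 6 * A₆ * x₁^3 * x₂ + 9 * A₆ * x₁^2 * x₂^2 - 21 * A₆ * x₁ * Y₁ * Y₂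 - 9 * A₆ * x₁ * x₂^3 + 10 * A₆ * x₁ * Y₂^2 + 2 * A₆ * Y₁ * x₂ * Y₂ + A₆ * x₂ * Y₂^2 - 3 * x₁^4 * Y₁ * Y₂ + 4 * x₁^4 * Y₂^2 + 2 * x₁^3 * Y₁ * x₂ * Y₂ - 2 * x₁^3 * x₂ * Y₂^2 - x₁ * Y₁ * Y₂^3) * h₂

lemma ident_G3 (h₁ : Y₁ ^ 2 = x₁ ^ 3 + A₂ * x₁ ^ 2 + A₄ * x₁ + A₆)
    (h₂ : Y₂ ^ 2 = x₂ ^ 3 + A₂ * x₂ ^ 2 + A₄ * x₂ + A₆) :
    Nwh A₂ A₄ A₆ x₁ Y₁ x₂ Y₂ = -(-(Y₁ + Y₂) * (((Y₁ + Y₂)^2 - (A₂ + x₁ + x₂) * (x₁ - x₂)^2) - x₁ * (x₁ - x₂)^2) - Y₁ * (x₁ - x₂)^3) := by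
  simp only [Nwh]
  linear_combination (-Y₁ - 2 * Y₂) * h₁ +
    (-2 * Y₁ - Y₂) * h₂

variable {x Y : R}

lemma ident_D2 (h : Y ^ 2 = x ^ 3 + A₂ * x ^ 2 + A₄ * x + A₆) :
    Dh A₂ A₄ A₆ x Y x Y = (-(3 * x^2 + 2 * A₂ * x + A₄) * (((3 * x^2 + 2 * A₂ * x + A₄)^2 - (A₂ + 2 * x) * (4 * Y^2)) - 4 * x * Y^2) - 8 * Y^4) := by
  simp only [Dh]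
  linear_combination (-8 * A₂^2 * x - 4 * A₂ * A₄ - 27 * A₂ * x^2 - 3 * A₄ * x + 9 * A₆ - 27 * x^3 + 9 * Y^2) * h

lemma ident_D3 (h : Y ^ 2 = x ^ 3 + A₂ * x ^ 2 + A₄ * x + A₆) :
    Nwh A₂ A₄ A₆ x Y x Y = 8 * Y ^ 3 := by
  simp only [Nwh]
  linear_combination (-6 * Y) * h

lemma ident_D1 (h : Y ^ 2 = x ^ 3 + A₂ * x ^ 2 + A₄ * x + A₆) :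
    Nzh A₂ A₄ A₆ x Y x Y = 2 * Y * ((3 * x^2 + 2 * A₂ * x + A₄)^2 - (A₂ + 2 * x) * (4 * Y^2)) := by
  simp only [Nzh]
  linear_combination (8 * A₂ * Y + 18 * x * Y) * h

end Ident

end Defs

/-! ### The law over a field -/

section Field

variable {F : Type*} [Field F] {A₂ A₄ A₆ x₁ Y₁ x₂ Y₂ : F}

lemma Dp_chart (hY₁ : Y₁ ≠ 0) (hY₂ : Y₂ ≠ 0) :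
    Dp A₂ A₄ A₆ (x₁ / Y₁) (1 / Y₁) (x₂ / Y₂) (1 / Y₂) =
      Dh A₂ A₄ A₆ x₁ Y₁ x₂ Y₂ / (Y₁ ^ 2 * Y₂ ^ 2) := by
  simp only [Dp, Dh]
  field_simp

lemma Nzp_chart (hY₁ : Y₁ ≠ 0) (hY₂ : Y₂ ≠ 0) :
    Nzp A₂ A₄ A₆ (x₁ / Y₁) (1 / Y₁) (x₂ / Y₂) (1 / Y₂) =
      Nzh A₂ A₄ A₆ x₁ Y₁ x₂ Y₂ / (Y₁ ^ 2 * Y₂ ^ 2) := by
  simp only [Nzp, Nzh]
  field_simp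
  ring

lemma Nwp_chart (hY₁ : Y₁ ≠ 0) (hY₂ : Y₂ ≠ 0) :
    Nwp A₂ A₄ A₆ (x₁ / Y₁) (1 / Y₁) (x₂ / Y₂) (1 / Y₂) =
      Nwh A₂ A₄ A₆ x₁ Y₁ x₂ Y₂ / (Y₁ ^ 2 * Y₂ ^ 2) := by
  simp only [Nwp, Nwh]
  field_simp
  ring

section Generic

variable (h₁ : Y₁ ^ 2 = x₁ ^ 3 + A₂ * x₁ ^ 2 + A₄ * x₁ + A₆)
  (h₂ : Y₂ ^ 2 = x₂ ^ 3 + A₂ * x₂ ^ 2 + A₄ * x₂ + A₆)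
  (hY₁ : Y₁ ≠ 0) (hY₂ : Y₂ ≠ 0) (hx : x₁ ≠ x₂)
  {L x₃ Y₃ : F} (hL : L = (Y₁ - Y₂) / (x₁ - x₂)) (hx₃ : x₃ = L ^ 2 - A₂ - x₁ - x₂)
  (hY₃ : Y₃ = -L * (x₃ - x₁) - Y₁)

include hx hL hx₃ in
lemma generic_x₃ :
    x₃ * (x₁ - x₂) ^ 2 = (Y₁ - Y₂) ^ 2 - (A₂ + x₁ + x₂) * (x₁ - x₂) ^ 2 := by
  have hd : x₁ - x₂ ≠ 0 := sub_ne_zero.2 hx
  subst hL hx₃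
  field_simp
  ring

include hx hL hx₃ hY₃ in
lemma generic_Y₃ :
    Y₃ * (x₁ - x₂) ^ 3 = -(Y₁ - Y₂) * ((Y₁ - Y₂) ^ 2 - (A₂ + x₁ + x₂) * (x₁ - x₂) ^ 2
      - x₁ * (x₁ - x₂) ^ 2) - Y₁ * (x₁ - x₂) ^ 3 := by
  have hd : x₁ - x₂ ≠ 0 := sub_ne_zero.2 hx
  subst hL hx₃ hY₃
  field_simp
  ring

include h₁ h₂ hx hL hx₃ hY₃ in
lemma generic_Dh_w : Dh A₂ A₄ A₆ x₁ Y₁ x₂ Y₂ = Nwh A₂ A₄ A₆ x₁ Y₁ x₂ Y₂ * Y₃ := by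
  have hd : x₁ - x₂ ≠ 0 := sub_ne_zero.2 hx
  apply mul_right_cancel₀ (pow_ne_zero 3 hd)
  rw [ident_G1 h₁ h₂, mul_assoc, generic_Y₃ hx hL hx₃ hY₃]

include h₁ h₂ hx hL hx₃ hY₃ in
lemma generic_Dh_z : Dh A₂ A₄ A₆ x₁ Y₁ x₂ Y₂ * x₃ = Nzh A₂ A₄ A₆ x₁ Y₁ x₂ Y₂ * Y₃ := by
  have hd : x₁ - x₂ ≠ 0 := sub_ne_zero.2 hx
  apply mul_right_cancel₀ (pow_ne_zero 3 hd)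
  have e1 := generic_x₃ hx hL hx₃
  have e2 := generic_Y₃ hx hL hx₃ hY₃
  have e3 := ident_G2 h₁ h₂
  calc Dh A₂ A₄ A₆ x₁ Y₁ x₂ Y₂ * x₃ * (x₁ - x₂) ^ 3
      = Dh A₂ A₄ A₆ x₁ Y₁ x₂ Y₂ * (x₃ * (x₁ - x₂) ^ 2) * (x₁ - x₂) := by ring
    _ = Nzh A₂ A₄ A₆ x₁ Y₁ x₂ Y₂ * (Y₃ * (x₁ - x₂) ^ 3) := by rw [e1, e3, e2]
    _ = Nzh A₂ A₄ A₆ x₁ Y₁ x₂ Y₂ * Y₃ * (x₁ - x₂) ^ 3 := by ring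

include h₁ h₂ hY₁ hY₂ hx hL hx₃ hY₃ in
/-- **The addition law, generic case** (`x₁ ≠ x₂`). -/
theorem law_generic (hY₃0 : Y₃ ≠ 0) :
    Dp A₂ A₄ A₆ (x₁ / Y₁) (1 / Y₁) (x₂ / Y₂) (1 / Y₂) * (x₃ / Y₃) =
        Nzp A₂ A₄ A₆ (x₁ / Y₁) (1 / Y₁) (x₂ / Y₂) (1 / Y₂) ∧
      Dp A₂ A₄ A₆ (x₁ / Y₁) (1 / Y₁) (x₂ / Y₂) (1 / Y₂) * (1 / Y₃) =
        Nwp A₂ A₄ A₆ (x₁ / Y₁) (1 / Y₁) (x₂ / Y₂) (1 / Y₂) := by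
  rw [Dp_chart hY₁ hY₂, Nzp_chart hY₁ hY₂, Nwp_chart hY₁ hY₂]
  have ew := generic_Dh_w h₁ h₂ hx hL hx₃ hY₃
  have ez := generic_Dh_z h₁ h₂ hx hL hx₃ hY₃
  constructor
  · rw [div_mul_div_comm, ez]
    field_simp
  · rw [div_mul_div_comm, mul_one, ew]
    field_simp

include h₁ h₂ hY₁ hY₂ hx hL hx₃ hY₃ in
/-- **The denominator does not vanish, generic case**: `Y(P+Q) ≠ 0` and `Y(P-Q) ≠ 0`. -/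
theorem Dp_ne_zero_generic (hY₃0 : Y₃ ≠ 0) {L' x₃' Y₃' : F} (hL' : L' = (Y₁ + Y₂) / (x₁ - x₂))
    (hx₃' : x₃' = L' ^ 2 - A₂ - x₁ - x₂) (hY₃' : Y₃' = -L' * (x₃' - x₁) - Y₁) (hY₃'0 : Y₃' ≠ 0) :
    Dp A₂ A₄ A₆ (x₁ / Y₁) (1 / Y₁) (x₂ / Y₂) (1 / Y₂) ≠ 0 := by
  have hd : x₁ - x₂ ≠ 0 := sub_ne_zero.2 hx
  rw [Dp_chart hY₁ hY₂, generic_Dh_w h₁ h₂ hx hL hx₃ hY₃]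
  refine div_ne_zero (mul_ne_zero ?_ hY₃0) (mul_ne_zero (pow_ne_zero 2 hY₁) (pow_ne_zero 2 hY₂))
  rw [ident_G3 h₁ h₂]
  have e : Y₃' * (x₁ - x₂) ^ 3 = -(Y₁ + Y₂) * ((Y₁ + Y₂) ^ 2 - (A₂ + x₁ + x₂) * (x₁ - x₂) ^ 2
      - x₁ * (x₁ - x₂) ^ 2) - Y₁ * (x₁ - x₂) ^ 3 := by
    subst hL' hx₃' hY₃'
    field_simp
    ring
  rw [← e]
  exact neg_ne_zero.2 (mul_ne_zero hY₃'0 (pow_ne_zero 3 hd))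

end Generic

section Double

variable {x Y : F} (h : Y ^ 2 = x ^ 3 + A₂ * x ^ 2 + A₄ * x + A₆) (hY : Y ≠ 0) (h2 : (2 : F) ≠ 0)
  {L x₃ Y₃ : F} (hL : L = (3 * x ^ 2 + 2 * A₂ * x + A₄) / (2 * Y)) (hx₃ : x₃ = L ^ 2 - A₂ - x - x)
  (hY₃ : Y₃ = -L * (x₃ - x) - Y)

include h hY h2 hL hx₃ hY₃ in
lemma double_Dh : Dh A₂ A₄ A₆ x Y x Y = 8 * Y ^ 3 * Y₃ := by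
  rw [ident_D2 h]
  subst hL hx₃ hY₃
  field_simp
  ring

include h hY h2 hL hx₃ in
lemma double_Nzh : Nzh A₂ A₄ A₆ x Y x Y = 8 * Y ^ 3 * x₃ := by
  rw [ident_D1 h]
  subst hL hx₃
  field_simp
  ring

include h hY h2 hL hx₃ hY₃ in
/-- **The addition law, doubling**. -/
theorem law_double (hY₃0 : Y₃ ≠ 0) :
    Dp A₂ A₄ A₆ (x / Y) (1 / Y) (x / Y) (1 / Y) * (x₃ / Y₃) =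
        Nzp A₂ A₄ A₆ (x / Y) (1 / Y) (x / Y) (1 / Y) ∧
      Dp A₂ A₄ A₆ (x / Y) (1 / Y) (x / Y) (1 / Y) * (1 / Y₃) =
        Nwp A₂ A₄ A₆ (x / Y) (1 / Y) (x / Y) (1 / Y) := by
  rw [Dp_chart hY hY, Nzp_chart hY hY, Nwp_chart hY hY, double_Dh h hY h2 hL hx₃ hY₃,
    double_Nzh h hY h2 hL hx₃, ident_D3 h]
  constructor
  · field_simp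
  · field_simp

include h hY h2 hL hx₃ hY₃ in
/-- **The denominator does not vanish, doubling**: `Y(2P) ≠ 0`. -/
theorem Dp_ne_zero_double (hY₃0 : Y₃ ≠ 0) :
    Dp A₂ A₄ A₆ (x / Y) (1 / Y) (x / Y) (1 / Y) ≠ 0 := by
  rw [Dp_chart hY hY, double_Dh h hY h2 hL hx₃ hY₃]
  have h8 : (8 : F) ≠ 0 := by
    have : (8 : F) = 2 ^ 3 := by norm_num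
    rw [this]
    exact pow_ne_zero 3 h2
  exact div_ne_zero (mul_ne_zero (mul_ne_zero h8 (pow_ne_zero 3 hY)) hY₃0)
    (mul_ne_zero (pow_ne_zero 2 hY) (pow_ne_zero 2 hY))

end Double

end Field

end Fermat.Agent.Tate.T5.H5
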