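/-
Tate T5 (flat at good `p`), package B, part 2 (helper5): the chart `z = x / Y`, `w = 1 / Y`
(`Y = y + (a₁ x + a₃) / 2`) on the points of a Weierstrass curve over a field in which `2 ≠ 0`, and
the addition law of `H5_Law` for Mathlib's group law.

* `zc W P`, `wc W P` : chart coordinates (`0`, `0` at the origin);
* `InU W P` : `P` is the origin or `Y(P) ≠ 0` (i.e. `P` is not a point of exact order two);
* `chart_add` : `Dp * zc (P + Q) = Nzp`, `Dp * wc (P + Q) = Nwp` if `P`, `Q`, `P + Q` are in `U`;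
* `chart_Dp_ne_zero` : `Dp ≠ 0` if `P`, `Q`, `P + Q`, `P - Q` are in `U`;
* `inU_of_odd_nsmul` : points of odd order are in `U`.
-/
import Fermat.Agent.Tate.T5.H5_Law
import Mathlib.AlgebraicGeometry.EllipticCurve.Affine.Point

set_option autoImplicit false
set_option linter.unusedSectionVars false

namespace Fermat.Agent.Tate.T5.H5

open WeierstrassCurve WeierstrassCurve.Affine

variable {F : Type*} [Field F] (W : Affine F)

/-- Coefficients of the model `Y² = x³ + A₂ x² + A₄ x + A₆`. -/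
noncomputable def cA₂ : F := W.b₂ / 4
/-- Coefficients of the model `Y² = x³ + A₂ x² + A₄ x + A₆`. -/
noncomputable def cA₄ : F := W.b₄ / 2
/-- Coefficients of the model `Y² = x³ + A₂ x² + A₄ x + A₆`. -/
noncomputable def cA₆ : F := W.b₆ / 4

/-- The coordinate `Y = y + (a₁ x + a₃) / 2`. -/
noncomputable def Yc (x y : F) : F := y + (W.a₁ * x + W.a₃) / 2

section Formulas

variable {W} (h2 : (2 : F) ≠ 0)

include h2 in
lemma four_ne_zero' : (4 : F) ≠ 0 := by
  have : (4 : F) = 2 * 2 := by norm_num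
  rw [this]
  exact mul_ne_zero h2 h2

include h2 in
lemma Yc_sq {x y : F} (h : W.Equation x y) :
    Yc W x y ^ 2 = x ^ 3 + cA₂ W * x ^ 2 + cA₄ W * x + cA₆ W := by
  have h4 := four_ne_zero' h2
  rw [equation_iff] at h
  simp only [Yc, cA₂, cA₄, cA₆, b₂, b₄, b₆]
  field_simp
  linear_combination 16 * h

include h2 in
lemma Yc_negY (x y : F) : Yc W x (W.negY x y) = -Yc W x y := by
  simp only [Yc, negY]
  field_simp
  ring

include h2 in
lemma Yc_eq_zero_iff (x y : F) : Yc W x y = 0 ↔ y = W.negY x y := by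
  simp only [Yc, negY]
  constructor
  · intro h
    field_simp at h
    linear_combination h
  · intro h
    field_simp
    linear_combination h

include h2 in
lemma two_Yc (x y : F) : 2 * Yc W x y = y - W.negY x y := by
  simp only [Yc, negY]
  field_simp
  ring

include h2 in
lemma addX_eq (x₁ x₂ ℓ : F) :
    W.addX x₁ x₂ ℓ = (ℓ + W.a₁ / 2) ^ 2 - cA₂ W - x₁ - x₂ := by
  have h4 := four_ne_zero' h2
  simp only [addX, cA₂, b₂]
  field_simp
  ring

include h2 in
lemma Yc_addY (x₁ x₂ y₁ ℓ : F) :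
    Yc W (W.addX x₁ x₂ ℓ) (W.addY x₁ x₂ y₁ ℓ) =
      -(ℓ + W.a₁ / 2) * (W.addX x₁ x₂ ℓ - x₁) - Yc W x₁ y₁ := by
  simp only [Yc, addY, negAddY, negY]
  field_simp
  ring

include h2 in
lemma slope_add_of_X_ne [DecidableEq F] {x₁ x₂ : F} (y₁ y₂ : F) (hx : x₁ ≠ x₂) :
    W.slope x₁ x₂ y₁ y₂ + W.a₁ / 2 = (Yc W x₁ y₁ - Yc W x₂ y₂) / (x₁ - x₂) := by
  have hd : x₁ - x₂ ≠ 0 := sub_ne_zero.2 hx
  rw [slope_of_X_ne hx]
  simp only [Yc]
  field_simp
  ring

include h2 in
lemma slope_add_of_Y_ne [DecidableEq F] {x y : F} (hy : y ≠ W.negY x y) :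
    W.slope x x y y + W.a₁ / 2 =
      (3 * x ^ 2 + 2 * cA₂ W * x + cA₄ W) / (2 * Yc W x y) := by
  have h4 := four_ne_zero' h2
  have hY : Yc W x y ≠ 0 := fun h => hy ((Yc_eq_zero_iff h2 x y).1 h)
  have hd : y - W.negY x y ≠ 0 := sub_ne_zero.2 hy
  rw [slope_of_Y_ne rfl hy, ← two_Yc h2]
  simp only [cA₂, cA₄, b₂, b₄]
  have e : y = Yc W x y - (W.a₁ * x + W.a₃) / 2 := by simp only [Yc]; ring
  generalize Yc W x y = Y at *
  subst e
  field_simp
  ring

end Formulas

/-! ### Chart coordinates -/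

/-- The chart coordinate `z = x / Y`. -/
noncomputable def zc : W.Point → F
  | .zero => 0
  | .some x y _ => x / Yc W x y

/-- The chart coordinate `w = 1 / Y`. -/
noncomputable def wc : W.Point → F
  | .zero => 0
  | .some x y _ => 1 / Yc W x y

/-- `P` lies in the chart: it is the origin, or `Y(P) ≠ 0`. -/
def InU : W.Point → Prop
  | .zero => True
  | .some x y _ => Yc W x y ≠ 0

@[simp] lemma zc_zero : zc W 0 = 0 := rfl
@[simp] lemma wc_zero : wc W 0 = 0 := rfl
@[simp] lemma inU_zero : InU W 0 := trivial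
@[simp] lemma zc_some {x y : F} (h : W.Nonsingular x y) : zc W (.some x y h) = x / Yc W x y := rfl
@[simp] lemma wc_some {x y : F} (h : W.Nonsingular x y) : wc W (.some x y h) = 1 / Yc W x y := rfl
@[simp] lemma inU_some {x y : F} (h : W.Nonsingular x y) :
    InU W (.some x y h) ↔ Yc W x y ≠ 0 := Iff.rfl

variable {W}

lemma wc_eq_zero_iff {P : W.Point} (hP : InU W P) : wc W P = 0 ↔ P = 0 := by
  rcases P with _ | ⟨x, y, h⟩
  · exact ⟨fun _ => rfl, fun _ => rfl⟩
  · rw [inU_some] at hP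
    simp only [wc_some, one_div, inv_eq_zero]
    exact ⟨fun h0 => absurd h0 hP, fun h0 => absurd h0 (Point.some_ne_zero _)⟩

/-- The chart coordinates separate the points of `U`. -/
lemma eq_of_chart_eq {P Q : W.Point} (hP : InU W P) (hQ : InU W Q) (hz : zc W P = zc W Q)
    (hw : wc W P = wc W Q) : P = Q := by
  rcases P with _ | ⟨x₁, y₁, h₁⟩ <;> rcases Q with _ | ⟨x₂, y₂, h₂⟩
  · rfl
  · have : wc W (.some x₂ y₂ h₂) = 0 := hw.symm
    exact ((wc_eq_zero_iff hQ).1 this).symm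
  · have : wc W (.some x₁ y₁ h₁) = 0 := hw
    exact (wc_eq_zero_iff hP).1 this
  · rw [inU_some] at hP hQ
    simp only [zc_some, wc_some] at hz hw
    have hY : Yc W x₁ y₁ = Yc W x₂ y₂ := by
      have := congrArg (fun t => t⁻¹) hw
      simpa using this
    have hx : x₁ = x₂ := by
      rw [hY] at hz
      field_simp at hz
      exact hz
    subst hx
    have hy : y₁ = y₂ := by
      simp only [Yc] at hY
      linear_combination hY
    subst hy
    rfl

section Law

variable [DecidableEq F] (h2 : (2 : F) ≠ 0)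

include h2 in
lemma inU_neg {P : W.Point} (hP : InU W P) : InU W (-P) := by
  rcases P with _ | ⟨x, y, h⟩
  · exact trivial
  · rw [inU_some] at hP
    rw [Point.neg_some, inU_some, Yc_negY h2]
    exact neg_ne_zero.2 hP

include h2 in
lemma zc_neg (P : W.Point) : zc W (-P) = -zc W P := by
  rcases P with _ | ⟨x, y, h⟩
  · simp [← Point.zero_def]
  · rw [Point.neg_some, zc_some, zc_some, Yc_negY h2, div_neg]

include h2 in
lemma wc_neg (P : W.Point) : wc W (-P) = -wc W P := by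
  rcases P with _ | ⟨x, y, h⟩
  · simp [← Point.zero_def]
  · rw [Point.neg_some, wc_some, wc_some, Yc_negY h2, div_neg]

include h2 in
/-- **The addition law in the chart.** -/
theorem chart_add (P Q : W.Point) (hP : InU W P) (hQ : InU W Q) (hS : InU W (P + Q)) :
    Dp (cA₂ W) (cA₄ W) (cA₆ W) (zc W P) (wc W P) (zc W Q) (wc W Q) * zc W (P + Q) =
        Nzp (cA₂ W) (cA₄ W) (cA₆ W) (zc W P) (wc W P) (zc W Q) (wc W Q) ∧
      Dp (cA₂ W) (cA₄ W) (cA₆ W) (zc W P) (wc W P) (zc W Q) (wc W Q) * wc W (P + Q) =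
        Nwp (cA₂ W) (cA₄ W) (cA₆ W) (zc W P) (wc W P) (zc W Q) (wc W Q) := by
  rcases P with _ | ⟨x₁, y₁, h₁⟩
  · rw [← Point.zero_def, zero_add]
    simp
  rcases Q with _ | ⟨x₂, y₂, h₂⟩
  · rw [← Point.zero_def, add_zero]
    simp
  rw [inU_some] at hP hQ
  have e₁ := Yc_sq h2 h₁.1
  have e₂ := Yc_sq h2 h₂.1
  by_cases hx : x₁ = x₂
  · subst hx
    by_cases hy : y₁ = W.negY x₁ y₂
    · rw [Point.add_of_Y_eq rfl hy]
      have hY : Yc W x₁ y₂ = -Yc W x₁ y₁ := by
        rw [hy, Yc_negY h2, neg_neg]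
      simp only [zc_zero, wc_zero, mul_zero, zc_some, wc_some, hY, div_neg]
      exact ⟨(Nzp_neg_self _ _).symm, (Nwp_neg_self _ _).symm⟩
    · have hyy : y₁ = y₂ := Y_eq_of_Y_ne h₁.1 h₂.1 rfl hy
      subst hyy
      rw [Point.add_of_Y_ne hy] at hS ⊢
      rw [inU_some] at hS
      simp only [zc_some, wc_some]
      exact law_double e₁ hP h2 (slope_add_of_Y_ne h2 hy)
        (by rw [addX_eq h2]) (Yc_addY h2 _ _ _ _) hS
  · rw [Point.add_of_X_ne hx] at hS ⊢
    rw [inU_some] at hS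
    simp only [zc_some, wc_some]
    exact law_generic e₁ e₂ hP hQ hx (slope_add_of_X_ne h2 y₁ y₂ hx)
      (by rw [addX_eq h2]) (Yc_addY h2 _ _ _ _) hS

include h2 in
/-- **The denominator of the addition law does not vanish** on pairs `P`, `Q` with
`P`, `Q`, `P + Q`, `P - Q` in the chart. -/
theorem chart_Dp_ne_zero (P Q : W.Point) (hP : InU W P) (hQ : InU W Q) (hS : InU W (P + Q))
    (hD : InU W (P - Q)) :
    Dp (cA₂ W) (cA₄ W) (cA₆ W) (zc W P) (wc W P) (zc W Q) (wc W Q) ≠ 0 := by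
  rcases P with _ | ⟨x₁, y₁, h₁⟩
  · rw [← Point.zero_def]
    simp
  rcases Q with _ | ⟨x₂, y₂, h₂⟩
  · rw [← Point.zero_def]
    simp
  rw [inU_some] at hP hQ
  have e₁ := Yc_sq h2 h₁.1
  have e₂ := Yc_sq h2 h₂.1
  have hy₁ : y₁ ≠ W.negY x₁ y₁ := fun h => hP ((Yc_eq_zero_iff h2 _ _).2 h)
  -- doubling
  have key : InU W (Point.some x₁ y₁ h₁ + Point.some x₁ y₁ h₁) →
      Dp (cA₂ W) (cA₄ W) (cA₆ W) (x₁ / Yc W x₁ y₁) (1 / Yc W x₁ y₁) (x₁ / Yc W x₁ y₁)
        (1 / Yc W x₁ y₁) ≠ 0 := by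
    intro hS'
    rw [Point.add_of_Y_ne hy₁, inU_some] at hS'
    exact Dp_ne_zero_double e₁ hP h2 (slope_add_of_Y_ne h2 hy₁)
      (by rw [addX_eq h2]) (Yc_addY h2 _ _ _ _) hS'
  by_cases hx : x₁ = x₂
  · subst hx
    by_cases hy : y₁ = W.negY x₁ y₂
    · have hY : Yc W x₁ y₂ = -Yc W x₁ y₁ := by
        rw [hy, Yc_negY h2, neg_neg]
      have hQ' : -Point.some x₁ y₂ h₂ = Point.some x₁ y₁ h₁ := by
        rw [Point.neg_some]
        congr 1
        exact hy.symm
      rw [sub_eq_add_neg, hQ'] at hD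
      simp only [zc_some, wc_some, hY, div_neg, Dp_neg_right]
      exact key hD
    · have hyy : y₁ = y₂ := Y_eq_of_Y_ne h₁.1 h₂.1 rfl hy
      subst hyy
      simp only [zc_some, wc_some]
      exact key hS
  · rw [Point.add_of_X_ne hx, inU_some] at hS
    rw [sub_eq_add_neg, Point.neg_some, Point.add_of_X_ne hx, inU_some] at hD
    simp only [zc_some, wc_some]
    refine Dp_ne_zero_generic e₁ e₂ hP hQ hx (slope_add_of_X_ne h2 y₁ y₂ hx)
      (by rw [addX_eq h2]) (Yc_addY h2 _ _ _ _) hS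
      (L' := W.slope x₁ x₂ y₁ (W.negY x₂ y₂) + W.a₁ / 2) ?_
      (by rw [addX_eq h2]) (Yc_addY h2 _ _ _ _) hD
    rw [slope_add_of_X_ne h2 _ _ hx, Yc_negY h2, sub_neg_eq_add]

include h2 in
/-- Points of odd order lie in the chart. -/
theorem inU_of_odd_nsmul {n : ℕ} (hn : Odd n) {P : W.Point} (hP : n • P = 0) : InU W P := by
  rcases P with _ | ⟨x, y, h⟩
  · exact trivial
  · rw [inU_some]
    intro hY
    have hy : y = W.negY x y := (Yc_eq_zero_iff h2 x y).1 hY
    have h2P : (2 : ℕ) • Point.some x y h = 0 := by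
      rw [two_nsmul]
      exact Point.add_self_of_Y_eq hy
    obtain ⟨k, rfl⟩ := hn
    have : Point.some x y h = 0 := by
      have h1 : (2 * k + 1) • Point.some x y h = (k • ((2 : ℕ) • Point.some x y h)) +
          Point.some x y h := by
        rw [add_smul, one_smul, mul_comm, mul_smul]
      rw [h1, h2P, smul_zero, zero_add] at hP
      exact hP
    exact Point.some_ne_zero _ this

end Law

end Fermat.Agent.Tate.T5.H5
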